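import Fermat.Agent.H18J.Diam3
import Fermat.Agent.H18J.Full
import Fermat.Agent.H22.GamHComm
import Fermat.Agent.Q.Residue

set_option autoImplicit false
set_option linter.unusedSectionVars false
set_option linter.style.haveILetI false

/-!
# The conjugates `h_u` over the function field of level `Γ₀(N)`

-/

noncomputable section

open UpperHalfPlane hiding I
open ModularForm EisensteinSeries Filter Complex Topology Function CongruenceSubgroup
open scoped MatrixGroups Manifold Real Polynomial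

namespace Fermat.Agent.H23.FKL

open Fermat.Agent.H02 (tr tr_apply IsSlow modAlg)
open Fermat.Agent.H18 (theta)
open Fermat.Agent.H22 (dChar dChar_val mem_GamH GamH GamH_le_Gamma0 GamH_top exists_dChar_eq)
open Fermat.Agent.Igusa (IsExp)
open Fermat.Agent.H18J
open ModularCurve (coeffMap qExpand jqModC modularFunctionFieldFullC)

/-! ### The series `h_u` up to sign -/

theorem gcoef_neg (N : ℕ) (m : ZMod N) (r : ℕ) : gcoef N (-m) r = gcoef N m r := by
  rw [gcoef, gcoef]
  refine Finset.sum_congr rfl fun d _ => ?_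
  congr 1
  rw [wt, wt, ind1, ind1, ind1, ind1, add_comm]
  congr 1
  · simp [neg_inj]
  · simp only [Int.cast_neg]
    congr 1
    rw [eq_iff_iff, neg_eq_iff_eq_neg, eq_comm, neg_eq_iff_eq_neg]

theorem hS_neg (R : Type*) [CommRing R] (N : ℕ) (m : ZMod N) : hS R N (-m) = hS R N m := by
  have h : gcoef N (-m) = gcoef N m := funext (gcoef_neg N m)
  rw [hS, hS, h]

/-- `(ℤ/N)ˣ / ±1` -/
abbrev Iu (N : ℕ) : Type := (ZMod N)ˣ ⧸ (Subgroup.zpowers (-1 : (ZMod N)ˣ))

instance (N : ℕ) [NeZero N] : Fintype (Iu N) := Fintype.ofFinite _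

theorem mem_zpow_neg_one {N : ℕ} {u : (ZMod N)ˣ} (h : u ∈ Subgroup.zpowers (-1 : (ZMod N)ˣ)) :
    u = 1 ∨ u = -1 := by
  obtain ⟨k, rfl⟩ := h
  rcases Int.even_or_odd k with hk | hk
  · left
    exact hk.neg_one_zpow
  · right
    exact hk.neg_one_zpow

/-- the series attached to a class -/
def hb (R : Type*) [CommRing R] (N : ℕ) (q : Iu N) : LaurentSeries R :=
  Quotient.liftOn' q (fun u => hS R N (u : ZMod N)) fun a b hab => by
    rw [QuotientGroup.leftRel_apply] at hab
    rcases mem_zpow_neg_one hab with h | h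
    · have : b = a := by rw [← mul_one a, ← h, mul_inv_cancel_left]
      rw [this]
    · have : b = -a := by
        have h1 : b = a * (a⁻¹ * b) := by rw [mul_inv_cancel_left]
        rw [h1, h, mul_neg, mul_one]
      rw [this, Units.val_neg, hS_neg]

theorem hb_mk (R : Type*) [CommRing R] (N : ℕ) (u : (ZMod N)ˣ) :
    hb R N (QuotientGroup.mk u) = hS R N (u : ZMod N) := rfl

theorem coeffMap_hb {R S : Type*} [CommRing R] [CommRing S] (f : R →+* S) {N : ℕ} (q : Iu N) :
    coeffMap f (hb R N q) = hb S N q := by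
  induction q using QuotientGroup.induction_on with
  | H u => rw [hb_mk, hb_mk, coeffMap_hS]

theorem hb_injective (R : Type*) [CommRing R] [Nontrivial R] {N : ℕ} [NeZero N] :
    Function.Injective (hb R N) := by
  intro q q' h
  by_cases h1 : (1 : ZMod N) = -1
  · have h2 : ∀ u : (ZMod N)ˣ, u = 1 := fun u => Units.ext (by
      rw [one_eq_neg_one_imp u.isUnit h1, Units.val_one])
    induction q using QuotientGroup.induction_on with
    | H u =>
      induction q' using QuotientGroup.induction_on with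
      | H v => rw [h2 u, h2 v]
  induction q using QuotientGroup.induction_on with
  | H u =>
    induction q' using QuotientGroup.induction_on with
    | H v =>
      rw [hb_mk, hb_mk] at h
      rw [QuotientGroup.eq]
      rcases hS_injective R (unit_ne_neg u.isUnit h1) (unit_ne_neg v.isUnit h1) h with h2 | h2
      · rw [Units.ext h2, inv_mul_cancel]
        exact one_mem _
      · have h3 : u = -v := Units.ext (by rw [h2, Units.val_neg])
        rw [h3]
        have h4 : (-v)⁻¹ * v = -1 := by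
          rw [inv_neg, neg_mul, inv_mul_cancel]
        rw [h4]
        exact Subgroup.mem_zpowers _

/-! ### The elements of the function field of `Γ₁(N)` -/

section Field

variable (K : Type*) [Field K] [Algebra K ℂ] {N : ℕ} [NeZero N]

/-- the function field of `Γ₁(N)` -/
abbrev F1 (N : ℕ) : IntermediateField K (LaurentSeries K) :=
  FK K (GamH N (⊥ : Subgroup (ZMod N)ˣ))

theorem hfun_mem_modAlg (m : ZMod N) :
    hfun N m ∈ modAlg (GamH N (⊥ : Subgroup (ZMod N)ˣ)) := by
  refine ⟨isSlow_hfun m, fun γ hγ => ?_⟩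
  rw [tr_hfun (GamH_le_Gamma0 hγ)]
  obtain ⟨h1, h2⟩ := mem_GamH.mp (inv_mem hγ)
  have h3 : ((dChar N ⟨γ⁻¹, h1⟩ : (ZMod N)ˣ) : ZMod N) = ((γ 0 0 : ℤ) : ZMod N) := by
    rw [dChar_val]
    simp [Matrix.SpecialLinearGroup.coe_inv, Matrix.adjugate_fin_two]
  rw [Subgroup.mem_bot] at h2
  rw [← h3, h2, Units.val_one, mul_one]

theorem isExp_hS (hN : N ≠ 1) (u : (ZMod N)ˣ) :
    IsExp 1 (hfun N (u : ZMod N)) (theta K (hS K N (u : ZMod N))) := by
  have : theta K (hS K N (u : ZMod N)) = hS ℂ N (u : ZMod N) := coeffMap_hS _ _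
  rw [this]
  exact isExp_hfun (unit_ne_zero hN u)

/-- `h_u` as an element of the function field of `Γ₁(N)` -/
def yF (hN : N ≠ 1) (u : (ZMod N)ˣ) : F1 K N :=
  ⟨hS K N (u : ZMod N), mem_FK_of_mem ⟨_, hfun_mem_modAlg _, isExp_hS K hN u⟩⟩

theorem coe_yF (hN : N ≠ 1) (u : (ZMod N)ˣ) :
    (yF K hN u : LaurentSeries K) = hS K N (u : ZMod N) := rfl

theorem val_zero_zero (g : Gamma0 N) :
    (((g : SL(2, ℤ)) 0 0 : ℤ) : ZMod N) = ((dChar N g)⁻¹ : (ZMod N)ˣ) := by
  have h1 := (isUnit_of_det (N := N) (g : SL(2, ℤ)) (Gamma0_mem.mp g.2)).2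
  rw [← dChar_val N g] at h1
  exact (Units.inv_eq_of_mul_eq_one_left h1).symm

theorem dia_yF (hN : N ≠ 1) (g : Gamma0 N) (u : (ZMod N)ˣ) :
    dia K (⊥ : Subgroup (ZMod N)ˣ) g (yF K hN u) = yF K hN (u * (dChar N g)⁻¹) := by
  refine dia_of_ringS g (hfun_mem_modAlg _) (isExp_hS K hN u)
    (F' := hS K N ((u * (dChar N g)⁻¹ : (ZMod N)ˣ) : ZMod N)) ?_
  rw [tr_hfun g.2, val_zero_zero, ← Units.val_mul]
  exact isExp_hS K hN _

/-- `h_q` as an element of the function field of `Γ₁(N)` -/
def YF (hN : N ≠ 1) (q : Iu N) : F1 K N :=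
  ⟨hb K N q, by
    induction q using QuotientGroup.induction_on with
    | H u => exact (yF K hN u).2⟩

theorem coe_YF (hN : N ≠ 1) (q : Iu N) : (YF K hN q : LaurentSeries K) = hb K N q := rfl

theorem YF_mk (hN : N ≠ 1) (u : (ZMod N)ˣ) : YF K hN (QuotientGroup.mk u) = yF K hN u := rfl

theorem dia_YF (hN : N ≠ 1) (g : Gamma0 N) (q : Iu N) :
    dia K (⊥ : Subgroup (ZMod N)ˣ) g (YF K hN q) =
      YF K hN (q * QuotientGroup.mk (dChar N g)⁻¹) := by
  induction q using QuotientGroup.induction_on with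
  | H u =>
    rw [YF_mk, dia_yF, ← YF_mk]
    rfl

variable (N) in
/-- the product `∏ (X - h_q)` -/
def PL (R : Type*) [CommRing R] : (LaurentSeries R)[X] :=
  ∏ q : Iu N, (Polynomial.X - Polynomial.C (hb R N q))

theorem PL_monic (R : Type*) [CommRing R] : (PL N R).Monic :=
  Polynomial.monic_prod_of_monic _ _ fun q _ => Polynomial.monic_X_sub_C _

theorem PL_map {R S : Type*} [CommRing R] [CommRing S] (f : R →+* S) :
    (PL N R).map (coeffMap f) = PL N S := by
  rw [PL, Polynomial.map_prod, PL]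
  refine Finset.prod_congr rfl fun q _ => ?_
  rw [Polynomial.map_sub, Polynomial.map_X, Polynomial.map_C, coeffMap_hb]

theorem PL_natDegree (R : Type*) [CommRing R] [Nontrivial R] :
    (PL N R).natDegree = Fintype.card (Iu N) := by
  have h0 : Nontrivial (LaurentSeries R) := inferInstance
  rw [PL, Polynomial.natDegree_prod_of_monic _ _ fun q _ => Polynomial.monic_X_sub_C _]
  simp

theorem PL_eval (R : Type*) [CommRing R] (q : Iu N) : (PL N R).eval (hb R N q) = 0 := by
  rw [PL, Polynomial.eval_prod]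
  apply Finset.prod_eq_zero (Finset.mem_univ q)
  simp

/-- the coefficients are functions of level `Γ₀(N)` -/
theorem PL_coeff_mem (hN : N ≠ 1) (i : ℕ) : (PL N K).coeff i ∈ FK K (Gamma0 N) := by
  let PF : (F1 K N)[X] := ∏ q : Iu N, (Polynomial.X - Polynomial.C (YF K hN q))
  have h1 : PF.map ((F1 K N).val : F1 K N →+* LaurentSeries K) = PL N K := by
    rw [Polynomial.map_prod, PL]
    refine Finset.prod_congr rfl fun q _ => ?_
    rw [Polynomial.map_sub, Polynomial.map_X, Polynomial.map_C]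
    rfl
  have h2 : ∀ g : Gamma0 N, PF.map ((dia K (⊥ : Subgroup (ZMod N)ˣ) g : _ →ₐ[K] _) :
      F1 K N →+* F1 K N) = PF := by
    intro g
    rw [Polynomial.map_prod]
    refine Fintype.prod_equiv (Equiv.mulRight (QuotientGroup.mk (dChar N g)⁻¹ : Iu N)) _ _
      fun q => ?_
    rw [Polynomial.map_sub, Polynomial.map_X, Polynomial.map_C]
    congr 2
    exact dia_YF K hN g q
  have h3 : (PL N K).coeff i = (PF.coeff i : F1 K N) := by
    rw [← h1, Polynomial.coeff_map]
    rfl
  rw [h3, ← GamH_top]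
  refine mem_FK_of_dia_eq K (H := ⊤) (PF.coeff i) fun g _ => ?_
  conv_rhs => rw [← h2 g]
  rw [Polynomial.coeff_map]
  rfl

/-- elements of level `Γ₀(N)` are fixed -/
theorem dia_of_Gamma0 (g : Gamma0 N) (x : F1 K N) (hx : (x : LaurentSeries K) ∈ FK K (Gamma0 N)) :
    dia K (⊥ : Subgroup (ZMod N)ˣ) g x = x := by
  have hle : GamH N (⊥ : Subgroup (ZMod N)ˣ) ≤ GamH N ⊤ := by
    rw [GamH_top]; exact GamH_le_Gamma0
  rw [← GamH_top] at hx
  have h1 := dia_incF K hle g g rfl (⟨x, hx⟩ : FK K (GamH N ⊤))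
  have h2 : incF K hle (⟨x, hx⟩ : FK K (GamH N ⊤)) = x := Subtype.ext rfl
  rw [h2, dia_of_mem K (H := ⊤) g (Subgroup.mem_top _), h2] at h1
  exact h1.symm

/-- `F₁ = F₀(h_1)` -/
theorem F1_eq (hN : N ≠ 1) : F1 K N = FK K (Gamma0 N) ⊔
    IntermediateField.adjoin K {hS K N (1 : ZMod N)} := by
  apply le_antisymm
  · rw [F1, FK_eq_adjoin, IntermediateField.adjoin_le_iff]
    have hj : ∀ x ∈ FK K (Gamma0 N), x ∈ FK K (Gamma0 N) ⊔
        IntermediateField.adjoin K {hS K N (1 : ZMod N)} := fun x hx =>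
      (le_sup_left : FK K (Gamma0 N) ≤ _) hx
    rintro x ((rfl | rfl) | ⟨-, c, rfl⟩)
    · exact hj _ (mem_FK_of_mem jq_mem_ringS)
    · exact hj _ (mem_FK_of_mem (jqd_mem_ringS le_rfl))
    · have h1 : nrm (⊥ : Subgroup (ZMod N)ˣ) K c = jqModC K ^ c - hS K N (1 : ZMod N) := by
        have h2 : hFin (⊥ : Subgroup (ZMod N)ˣ) = {1} := by
          ext u
          rw [mem_hFin, Subgroup.mem_bot, Finset.mem_singleton]
        rw [nrm, h2, Finset.prod_singleton, Units.val_one]
      rw [h1]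
      refine sub_mem (pow_mem (hj _ (mem_FK_of_mem jq_mem_ringS)) c) ?_
      exact (le_sup_right : IntermediateField.adjoin K {hS K N (1 : ZMod N)} ≤ _)
        (IntermediateField.subset_adjoin _ _ rfl)
  · rw [sup_le_iff]
    constructor
    · exact FK_mono GamH_le_Gamma0
    · rw [IntermediateField.adjoin_le_iff]
      rintro _ rfl
      have := (yF K hN 1).2
      rwa [coe_yF, Units.val_one] at this

end Field

end Fermat.Agent.H23.FKL
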