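import Fermat.Agent.H23.FKL.Conj
import Fermat.Agent.H27.HauptEx

set_option autoImplicit false
set_option linter.unusedSectionVars false
set_option linter.style.haveILetI false

/-!
# Degrees and separability

-/

noncomputable section

open Polynomial IntermediateField
open IsLocalRing (residue ResidueField)

namespace Fermat.Agent.H23.FKL

/-! ### General lemmas on intermediate fields -/

section Gen

variable {k L : Type*} [Field k] [Field L] [Algebra k L]

theorem exists_lift_poly (E : IntermediateField k L) {P : L[X]} (hP : P.Monic)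
    (hc : ∀ i, P.coeff i ∈ E) : ∃ P' : E[X], P'.map (algebraMap E L) = P ∧
      P'.natDegree = P.natDegree ∧ P'.Monic := by
  have h1 : P ∈ Polynomial.lifts (algebraMap E L) := by
    rw [Polynomial.lifts_iff_coeff_lifts]
    intro n
    exact ⟨⟨_, hc n⟩, rfl⟩
  exact Polynomial.lifts_and_natDegree_eq_and_monic h1 hP

theorem relfinrank_sup_adjoin (E : IntermediateField k L) (y : L) {P : L[X]} (hP : P.Monic)
    (hc : ∀ i, P.coeff i ∈ E) (hy : P.eval y = 0)
    (hmin : ∀ Q : L[X], (∀ i, Q.coeff i ∈ E) → Q.eval y = 0 → Q ≠ 0 →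
      P.natDegree ≤ Q.natDegree) :
    E.relfinrank (E ⊔ IntermediateField.adjoin k {y}) = P.natDegree := by
  obtain ⟨P', h1, h2, h3⟩ := exists_lift_poly E hP hc
  have hev : aeval y P' = 0 := by
    rw [aeval_def, eval₂_eq_eval_map, h1, hy]
  have hmp : P' = minpoly E y := by
    refine minpoly.unique E y h3 hev fun Q hQ hQy => ?_
    have h4 := hmin (Q.map (algebraMap E L)) (fun i => by rw [coeff_map]; exact (Q.coeff i).2)
      (by rw [eval_map_algebraMap, hQy]) (by
        rw [Ne, Polynomial.map_eq_zero]; exact hQ.ne_zero)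
    rw [natDegree_map, ← h2] at h4
    rw [degree_eq_natDegree h3.ne_zero, degree_eq_natDegree hQ.ne_zero]
    exact_mod_cast h4
  have hint : IsIntegral E y := ⟨P', h3, hev⟩
  have hle : E ≤ E ⊔ IntermediateField.adjoin k {y} := le_sup_left
  rw [relfinrank_eq_finrank_of_le hle]
  have hext : extendScalars hle = IntermediateField.adjoin E {y} := by
    have h5 : (IntermediateField.adjoin E {y}).restrictScalars k =
        E ⊔ IntermediateField.adjoin k {y} := restrictScalars_adjoin_eq_sup k E {y}
    ext z
    rw [mem_extendScalars, ← h5]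
    rfl
  rw [hext, IntermediateField.adjoin.finrank hint, ← hmp, h2]

theorem isSep_coe {T L : Type*} [Field T] [Field L] [Algebra T L] (E : IntermediateField T L)
    (z : E) : IsSeparable T (z : L) ↔ IsSeparable T z :=
  isSeparable_map_iff E.val E.val.injective

theorem isSep_ext {T E : IntermediateField k L} (hTE : T ≤ E) :
    Algebra.IsSeparable T (extendScalars hTE) ↔ ∀ z ∈ E, IsSeparable T z := by
  constructor
  · intro h z hz
    exact (isSep_coe (extendScalars hTE) ⟨z, hz⟩).mpr (h.isSeparable' _)
  · intro h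
    exact ⟨fun z => (isSep_coe (extendScalars hTE) z).mp (h z z.2)⟩

/-- separability over a simple subfield, inside the big field -/
theorem isSeparable_adjoin_iff (F₁ : IntermediateField k L) (x : F₁) :
    Algebra.IsSeparable k⟮x⟯ F₁ ↔ ∀ z ∈ F₁, IsSeparable k⟮(x : L)⟯ z := by
  have hle : k⟮(x : L)⟯ ≤ F₁ := by
    rw [adjoin_simple_le_iff]; exact x.2
  have h1 : lift k⟮x⟯ = k⟮(x : L)⟯ := lift_adjoin_simple k F₁ x
  let i : k⟮x⟯ ≃+* k⟮(x : L)⟯ :=
    ((liftAlgEquiv k⟮x⟯).trans (IntermediateField.equivOfEq h1)).toRingEquiv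
  let j : F₁ ≃+* extendScalars hle := RingEquiv.refl _
  have hij : (algebraMap k⟮(x : L)⟯ (extendScalars hle)).comp (i : k⟮x⟯ →+* k⟮(x : L)⟯) =
      (j : F₁ →+* extendScalars hle).comp (algebraMap k⟮x⟯ F₁) := by
    ext z
    rfl
  have hij' : (algebraMap k⟮x⟯ F₁).comp (i.symm : k⟮(x : L)⟯ →+* k⟮x⟯) =
      (j.symm : extendScalars hle →+* F₁).comp (algebraMap k⟮(x : L)⟯ (extendScalars hle)) := by
    ext z
    obtain ⟨w, rfl⟩ := i.surjective z
    have := congrArg (fun f => ((f w : extendScalars hle) : L)) hij
    simp only [RingHom.comp_apply] at this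
    simp only [RingHom.comp_apply, RingHom.coe_coe, RingEquiv.symm_apply_apply]
    exact this.symm
  have key : Algebra.IsSeparable k⟮x⟯ F₁ ↔
      Algebra.IsSeparable k⟮(x : L)⟯ (extendScalars hle) := by
    constructor
    · intro h
      exact Algebra.IsSeparable.of_equiv_equiv i j hij
    · intro h
      exact Algebra.IsSeparable.of_equiv_equiv i.symm j.symm hij'
  rw [key, isSep_ext]

theorem isSeparable_sup_adjoin {T E : IntermediateField k L} (hTE : T ≤ E)
    (hE : ∀ z ∈ E, IsSeparable T z) (y : L) {P : L[X]} (hP : P.Monic) (hsep : P.Separable)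
    (hc : ∀ i, P.coeff i ∈ E) (hy : P.eval y = 0) :
    ∀ z ∈ E ⊔ IntermediateField.adjoin k {y}, IsSeparable T z := by
  obtain ⟨P', h1, h2, h3⟩ := exists_lift_poly E hP hc
  have hsep' : P'.Separable := by
    rw [← h1] at hsep
    exact (Polynomial.separable_map (algebraMap E L)).mp hsep
  have hev : aeval y P' = 0 := by
    rw [aeval_def, eval₂_eq_eval_map, h1, hy]
  have hyE : IsSeparable E y := hsep'.of_dvd (minpoly.dvd E y hev)
  haveI : Algebra.IsSeparable T (extendScalars hTE) := (isSep_ext hTE).mpr hE
  have hyT : IsSeparable T y := by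
    have h4 : IsSeparable (extendScalars hTE) y := hyE
    exact h4.of_algebra_isSeparable_of_isSeparable T
  have hle : E ⊔ IntermediateField.adjoin k {y} ≤ (separableClosure T L).restrictScalars k := by
    rw [sup_le_iff]
    constructor
    · intro z hz
      exact mem_separableClosure_iff.mpr (hE z hz)
    · rw [IntermediateField.adjoin_le_iff]
      rintro _ rfl
      exact mem_separableClosure_iff.mpr hyT
  intro z hz
  exact mem_separableClosure_iff.mp (hle hz)

end Gen

end Fermat.Agent.H23.FKL
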