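import Fermat.Agent.H27.HauptMk

set_option autoImplicit false
set_option linter.unusedSectionVars false
set_option linter.style.haveILetI false

/-!
# From equality of degrees to étale bases, for abstract reduction data

-/

noncomputable section

open Polynomial IntermediateField
open IsLocalRing (residue ResidueField residue_eq_zero_iff mem_maximalIdeal residue_surjective)

namespace Fermat.Agent.H23.FKL

open Fermat.Agent.H27 (RatCoord EtBasis RedMap gauss Small)

variable {L : Type} [Field L] {A : ValuationSubring L} {F κ : Type} [Field F] [Algebra L F]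
  [Field κ] [Algebra (ResidueField A) κ]

@[reducible] def algD (D : H28.RedData A F κ) : Algebra A D.Z :=
  (((algebraMap L F).comp A.subtype).codRestrict D.Z (fun a => D.alg_mem a)).toAlgebra

theorem exists_redMap (D : H28.RedData A F κ)
    (hgen : IntermediateField.adjoin (ResidueField A) (Set.range D.ρ) = ⊤) (t : D.Z)
    (h : RatCoord L (AdjoinSimple.gen L (t : F)))
    (hρt : Transcendental (ResidueField A) (D.ρ t)) {n : ℕ} (hn : 0 < n)
    (hF : Module.finrank L⟮(t : F)⟯ F = n)
    (hκ : Module.finrank (ResidueField A)⟮D.ρ t⟯ κ = n)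
    (hsep : Algebra.IsSeparable (ResidueField A)⟮D.ρ t⟯ κ) :
    ∃ e : EtBasis (gauss A h) F (Fin n), RedMap h e D.Z D.ρ ∧
      ∀ x : F, x ≠ 0 → ∃ c : L, c ≠ 0 ∧ ∃ a b : D.Z, D.ρ a ≠ 0 ∧ D.ρ b ≠ 0 ∧
        (b : F) * x = algebraMap L F c * a := by
  classical
  letI := algD D
  haveI : FiniteDimensional (ResidueField A)⟮D.ρ t⟯ κ :=
    Module.finite_of_finrank_pos (by rw [hκ]; exact hn)
  obtain ⟨r, hG⟩ := H29.IsGauss.of_finrank (A := A) (L := L)
    (F := F) (S := D.Z) (k := ResidueField A)
    (κ := κ) (residue A) D.ρ t n hn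
    (fun a ha => (residue_eq_zero_iff a).mpr ((mem_maximalIdeal a).mpr ha))
    residue_surjective (fun a => rfl)
    (fun a => D.ρ_alg a) hρt hgen hκ hF
  obtain ⟨e, he⟩ := H29.GaussB.exists_etBasis (𝕂 := L⟮(t : F)⟯)
    (x := AdjoinSimple.gen L (t : F)) hG rfl h
    (by rw [hκ, Fintype.card_fin])
  refine ⟨e, ?_, ?_⟩
  · exact
      { alg_mem := fun a => D.alg_mem a
        alg := fun a => D.ρ_alg a
        x_mem := t.2
        trans := hρt
        b_mem := fun i => by rw [he i]; exact (r i).2
        indep := by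
          intro Q hQ
          apply hG.indep
          rw [← hQ]
          refine Finset.sum_congr rfl fun i _ => ?_
          congr 2
          exact Subtype.ext (he i).symm }
  · intro x hx
    obtain ⟨c, hc, a, P, ha, hP, hx⟩ := hG.exists_repr x hx
    exact ⟨c, hc, a, _, ha, hP, hx⟩

end Fermat.Agent.H23.FKL
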