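import Fermat.Agent.H23.FKL.Loc

set_option autoImplicit false
set_option linter.unusedSectionVars false
set_option synthInstance.maxHeartbeats 400000

/-!
# The key theorem for the function fields `FK K Γ`

-/

open Polynomial

namespace Fermat.Agent.H23.FKL

noncomputable section

open AlgebraicCurve
open Fermat.Agent.H18J
open Fermat.Agent.H27 (gInd LocData RatCoord BrData Small gauss BV RankOne EtBasis kk redP incP cE
  not_small_one exists_kummer kummer_false root_small gauss_alg intSub_closed cE_mem_BV)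

variable {K : Type} [Field K] [Algebra K ℂ] [IsAlgClosed K]
  {Γ : Subgroup (Matrix.SpecialLinearGroup (Fin 2) ℤ)}
variable {𝕂 : Type*} [Field 𝕂] [Algebra K 𝕂] [Algebra 𝕂 (FK K Γ)] [IsScalarTower K 𝕂 (FK K Γ)]
variable {A : ValuationSubring K} {ι : Type} [Fintype ι] [DecidableEq ι]

theorem hlocF (N : ℕ) [NeZero N] [IsLevel N Γ] {x J : 𝕂} (h : RatCoord K x) (B : BrData A x J)
    (hJ : algebraMap 𝕂 (FK K Γ) J = jK K Γ) {E : Type*} [Field E] [Algebra 𝕂 E]
    [FiniteDimensional 𝕂 E] [Algebra K E] [IsScalarTower K 𝕂 E] (i : FK K Γ →ₐ[K] E)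
    (hi : ∀ z : 𝕂, i (algebraMap 𝕂 _ z) = algebraMap 𝕂 E z) (hgen : GenF i 𝕂)
    {ι : Type} [Fintype ι] (hι : Fintype.card ι = Module.finrank 𝕂 E) :
    ∀ a ∈ A, ∃ d : LocData x a E ι, (incP A B.D).eval a ≠ 0 → d.e = 1 := by
  intro a ha
  obtain ⟨d, hd⟩ := exists_locF (ι := ι) N i hgen hι h (J := J) (by rw [← hi, hJ]) B.cop B.rel a
  refine ⟨d, fun hDa => ?_⟩
  obtain ⟨c, h1, h2, h3⟩ := B.br a ha hDa
  exact hd c h1 h2 h3

/-- **Key theorem**, for a prime exponent. -/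
theorem key_primeF (N : ℕ) [NeZero N] [IsLevel N Γ] {x J : 𝕂} (h : RatCoord K x)
    (B : BrData A x J) (B' : BrData A x⁻¹ J)
    (hJ : algebraMap 𝕂 (FK K Γ) J = jK K Γ) (e : EtBasis (gauss A h) (FK K Γ) ι)
    (hrank : RankOne A) {p : ℕ} (hp : p.Prime) (hpk : (p : kk A) ≠ 0) {f₁ : FK K Γ}
    (hf₁ : Small A (gauss A h) (f₁ - 1)) (hdiv : ∀ P : Place K (FK K Γ), (p : ℤ) ∣ P.ord f₁) :
    ∃ w : FK K Γ, w ^ p = f₁ := by
  by_contra hcon
  push Not at hcon
  have : CharZero K := (algebraMap K ℂ).charZero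
  obtain ⟨ζ, hζ⟩ : ∃ ζ : K, IsPrimitiveRoot ζ p := by
    haveI : NeZero (p : K) := ⟨Nat.cast_ne_zero.mpr hp.ne_zero⟩
    exact HasEnoughRootsOfUnity.exists_primitiveRoot K p
  obtain ⟨E, _, _, v, σ, hv, hgen, hσ⟩ := exists_kummer hp hcon
    (ζ := algebraMap K (FK K Γ) ζ) (by rw [← map_pow, hζ.pow_eq_one, map_one])
  letI : Algebra 𝕂 E := ((algebraMap (FK K Γ) E).comp (algebraMap 𝕂 (FK K Γ))).toAlgebra
  haveI : IsScalarTower 𝕂 (FK K Γ) E := IsScalarTower.of_algebraMap_eq fun _ => rfl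
  letI : Algebra K E := ((algebraMap (FK K Γ) E).comp (algebraMap K (FK K Γ))).toAlgebra
  haveI : IsScalarTower K (FK K Γ) E := IsScalarTower.of_algebraMap_eq fun _ => rfl
  haveI : IsScalarTower K 𝕂 E := IsScalarTower.of_algebraMap_eq fun c => by
    rw [IsScalarTower.algebraMap_apply 𝕂 (FK K Γ) E, ← IsScalarTower.algebraMap_apply K 𝕂 (FK K Γ)]
    rfl
  haveI := e.finite
  have hf₁0 : f₁ ≠ 0 := by
    rintro rfl
    rw [zero_sub] at hf₁
    exact not_small_one h (E := FK K Γ) (by simpa using hf₁.neg)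
  have hint : IsIntegral (FK K Γ) v := ⟨X ^ p - C f₁, monic_X_pow_sub_C _ hp.ne_zero, by
    rw [eval₂_sub, eval₂_pow, eval₂_X, eval₂_C, hv, sub_self]⟩
  haveI : FiniteDimensional (FK K Γ) E := (PowerBasis.ofAdjoinEqTop hint hgen).finite
  haveI : FiniteDimensional 𝕂 E := FiniteDimensional.trans 𝕂 (FK K Γ) E
  let i : FK K Γ →ₐ[K] E := IsScalarTower.toAlgHom K (FK K Γ) E
  have hgenOK : GenF i 𝕂 := GenF.kummer i hp.pos hf₁0 hdiv v hv (by
    intro S hS hvS z
    let S' : Subalgebra (FK K Γ) E := { S with algebraMap_mem' := hS }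
    have h1 : Algebra.adjoin (FK K Γ) {v} ≤ S' := by
      rw [Algebra.adjoin_le_iff]
      rintro _ rfl
      exact hvS
    rw [hgen] at h1
    exact h1 (Algebra.mem_top (x := z)))
  have hσ' : σ v = cE K 𝕂 E ζ * v := by
    rw [hσ]
    show _ = algebraMap (FK K Γ) E (algebraMap 𝕂 (FK K Γ) (algebraMap K 𝕂 ζ)) * v
    rw [← IsScalarTower.algebraMap_apply K 𝕂 (FK K Γ)]
  exact kummer_false h e hrank B.D B'.D B.sq B'.sq hp hpk hf₁ v hv hgen hζ σ hσ'
    (fun m hm => hlocF N h B hJ i (fun _ => rfl) hgenOK hm)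
    (fun m hm => hlocF N h.inv B' hJ i (fun _ => rfl) hgenOK hm)

/-- **Key theorem.** -/
theorem key_powF (N : ℕ) [NeZero N] [IsLevel N Γ] {x J : 𝕂} (h : RatCoord K x)
    (B : BrData A x J) (B' : BrData A x⁻¹ J)
    (hJ : algebraMap 𝕂 (FK K Γ) J = jK K Γ) (e : EtBasis (gauss A h) (FK K Γ) ι)
    (hrank : RankOne A) (m : ℕ) : ∀ (_ : (m : kk A) ≠ 0) (f₁ : FK K Γ)
    (_ : Small A (gauss A h) (f₁ - 1)) (_ : ∀ P : Place K (FK K Γ), (m : ℤ) ∣ P.ord f₁),
    ∃ w : FK K Γ, w ^ m = f₁ ∧ Small A (gauss A h) (w - 1) := by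
  have : CharZero K := (algebraMap K ℂ).charZero
  have hV := gauss_alg (A := A) h
  haveI := e.finite
  induction m using Nat.strong_induction_on with
  | _ m ih =>
    intro hmk f₁ hf₁ hdiv
    by_cases hm1 : m = 1
    · exact ⟨f₁, by rw [hm1, pow_one], hf₁⟩
    have hp := Nat.minFac_prime hm1
    set p := m.minFac with hpdef
    obtain ⟨m', hm'⟩ := Nat.minFac_dvd m
    rw [← hpdef] at hm'
    have hm0 : m ≠ 0 := by rintro rfl; exact hmk (by simp)
    have hm'0 : m' ≠ 0 := by rintro rfl; rw [mul_zero] at hm'; exact hm0 hm'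
    have hpk : (p : kk A) ≠ 0 := by
      intro h0; apply hmk; rw [hm', Nat.cast_mul, h0, zero_mul]
    have hm'k : (m' : kk A) ≠ 0 := by
      intro h0; apply hmk; rw [hm', Nat.cast_mul, h0, mul_zero]
    have hlt : m' < m := by
      rw [hm']
      exact lt_mul_of_one_lt_left (Nat.pos_of_ne_zero hm'0) hp.one_lt
    have hf₁0 : f₁ ≠ 0 := by
      rintro rfl
      rw [zero_sub] at hf₁
      exact not_small_one h (E := FK K Γ) (by simpa using hf₁.neg)
    obtain ⟨w, hw⟩ := key_primeF N h B B' hJ e hrank hp hpk hf₁ (fun P => by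
      refine dvd_trans ?_ (hdiv P)
      rw [hm']; push_cast; exact dvd_mul_right _ _)
    have hw0 : w ≠ 0 := by
      rintro rfl
      rw [zero_pow hp.ne_zero] at hw
      exact hf₁0 hw.symm
    -- `w` reduces to a root of unity
    have hf₁B : f₁ ∈ BV (gauss A h) (FK K Γ) := by
      have := add_mem (Small.mem hV hf₁) (one_mem (BV (gauss A h) (FK K Γ)))
      rwa [sub_add_cancel] at this
    have hwB : w ∈ BV (gauss A h) (FK K Γ) := by
      apply intSub_closed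
      refine ⟨X ^ p - C ⟨f₁, hf₁B⟩, monic_X_pow_sub_C _ hp.ne_zero, ?_⟩
      rw [eval₂_sub, eval₂_pow, eval₂_X, eval₂_C, hw]
      exact sub_self _
    obtain ⟨ζ, hζ⟩ : ∃ ζ : K, IsPrimitiveRoot ζ p := by
      haveI : NeZero (p : K) := ⟨Nat.cast_ne_zero.mpr hp.ne_zero⟩
      exact HasEnoughRootsOfUnity.exists_primitiveRoot K p
    obtain ⟨hζA, n, hn⟩ := root_small h e hrank B.D B'.D B.sq B'.sq hp hpk hζ hwB
      (by rw [hw]; exact hf₁)
      (hlocF N h B hJ (AlgHom.id K _) (fun _ => rfl)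
        (GenF.of_surjective (i := AlgHom.id K (FK K Γ)) Function.surjective_id)
        (Module.finrank_eq_card_basis e.b).symm)
      (hlocF N h.inv B' hJ (AlgHom.id K _) (fun _ => rfl)
        (GenF.of_surjective (i := AlgHom.id K (FK K Γ)) Function.surjective_id)
        (Module.finrank_eq_card_basis e.b).symm)
    have hζ0 : ζ ≠ 0 := hζ.ne_zero hp.ne_zero
    have hζi : ζ⁻¹ ∈ A := by
      have h3 : ζ * ζ ^ (p - 1) = 1 := by
        rw [← pow_succ', Nat.sub_add_cancel hp.pos, hζ.pow_eq_one]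
      rw [inv_eq_of_mul_eq_one_right h3]
      exact pow_mem hζA _
    set c := cE K 𝕂 (FK K Γ) ζ with hc
    have hc0 : c ≠ 0 := by rw [hc, ne_eq, map_eq_zero]; exact hζ0
    have hcp : c ^ p = 1 := by rw [hc, ← map_pow, hζ.pow_eq_one, map_one]
    set w₁ := (c⁻¹) ^ n * w with hw₁
    have hw₁s : Small A (gauss A h) (w₁ - 1) := by
      have h1 : w₁ - 1 = (c⁻¹) ^ n * (w - c ^ n) := by
        rw [hw₁, mul_sub, inv_pow, inv_mul_cancel₀ (pow_ne_zero _ hc0)]
      rw [h1]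
      refine Small.mul_left (pow_mem ?_ n) hn
      rw [hc, ← map_inv₀]
      exact cE_mem_BV hV hζi
    have hw₁p : w₁ ^ p = f₁ := by
      rw [hw₁, mul_pow, hw, ← pow_mul, mul_comm n p, pow_mul, inv_pow, hcp, inv_one, one_pow,
        one_mul]
    have hw₁0 : w₁ ≠ 0 := by
      intro h0
      rw [h0, zero_pow hp.ne_zero] at hw₁p
      exact hf₁0 hw₁p.symm
    obtain ⟨w₂, h1, h2⟩ := ih m' hlt hm'k w₁ hw₁s (fun P => by
      have h3 := hdiv P
      rw [← hw₁p, ← zpow_natCast, P.ord_zpow, hm'] at h3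
      push_cast at h3
      exact Int.dvd_of_mul_dvd_mul_left (by exact_mod_cast hp.ne_zero) h3)
    exact ⟨w₂, by rw [hm', mul_comm, pow_mul, h1, hw₁p], h2⟩

end

end Fermat.Agent.H23.FKL
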