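import Fermat.Agent.H23.FKL.Res
import Fermat.Agent.H23.FKL.Key
import Fermat.Agent.H11J.Iface

set_option autoImplicit false
set_option linter.unusedSectionVars false
set_option linter.style.haveILetI false
set_option synthInstance.maxHeartbeats 400000

/-!
# The key property for the function field of `Γ₁(N)`

-/

noncomputable section

open Polynomial IntermediateField CongruenceSubgroup AlgebraicCurve
open IsLocalRing (residue ResidueField residue_eq_zero_iff mem_maximalIdeal residue_surjective)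

namespace Fermat.Agent.H23.FKL

open Fermat.Agent.H22 (dChar GamH exists_dChar_eq)
open Fermat.Agent.H18J
open Fermat.Agent.Q (Red intL redL)
open Fermat.Agent.H27 (RatCoord BrData EtBasis RedMap gauss Small BV RankOne ratCoord_gen
  relfinrank_level finrank_adjoin_eq isSeparable_Fk tK cc_cc order_cc trans_coe
  transcendental_of_order isSeparable_of_mem Hyp natCast_residue_ne_zero rankOne_of)
open Fermat.Agent.Igusa (cc)
open ModularCurve (coeffMap qExpand jqModC modularFunctionFieldFullC full_degeneracyC_le dedekindPsi)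

local notation "Qb" => AlgebraicClosure ℚ

variable [Algebra Qb ℂ] {N : ℕ} [NeZero N] {A : ValuationSubring Qb}

/-- the reduction data of the function field of `Γ₁(N)` -/
def RD (N : ℕ) [NeZero N] (A : ValuationSubring Qb) :
    H28.RedData A (F1 Qb N) (K1 N A) := H28.laurentRed A (F1 Qb N) (K1 N A)

theorem mem_RD {f : F1 Qb N} : f ∈ (RD N A).Z ↔
    ∃ y : LaurentSeries A, coeffMap A.subtype y = (f : LaurentSeries Qb) ∧
      coeffMap (residue A) y ∈ K1 N A := H28.mem_laurentRed

theorem rho_RD (x : (RD N A).Z) {y : LaurentSeries A}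
    (hy : coeffMap A.subtype y = ((x : F1 Qb N) : LaurentSeries Qb)) :
    ((RD N A).ρ x : LaurentSeries (ResidueField A)) = coeffMap (residue A) y :=
  H28.laurentRed_ρ x hy

instance algARD : Algebra A (RD N A).Z :=
  (((algebraMap Qb (F1 Qb N)).comp A.subtype).codRestrict
    (RD N A).Z (fun a => (RD N A).alg_mem a)).toAlgebra

theorem coe_algARD (a : A) : ((algebraMap A (RD N A).Z a : (RD N A).Z) : F1 Qb N) =
    algebraMap Qb _ (a : Qb) := rfl

theorem mem_RD_of_int (y : LaurentSeries A) (h1 : coeffMap A.subtype y ∈ F1 Qb N)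
    (h2 : coeffMap (residue A) y ∈ K1 N A) : (⟨coeffMap A.subtype y, h1⟩ : F1 Qb N) ∈ (RD N A).Z :=
  mem_RD.mpr ⟨y, rfl, h2⟩

theorem rho_RD_of_int (y : LaurentSeries A) (h1 : coeffMap A.subtype y ∈ F1 Qb N)
    (h2 : coeffMap (residue A) y ∈ K1 N A) :
    ((RD N A).ρ ⟨⟨coeffMap A.subtype y, h1⟩, mem_RD_of_int y h1 h2⟩ :
      LaurentSeries (ResidueField A)) = coeffMap (residue A) y :=
  rho_RD _ rfl

theorem range_RD (hN : N ≠ 1) : IntermediateField.adjoin (ResidueField A)
    (Set.range (RD N A).ρ) = ⊤ := by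
  have hkey : ∀ y : LaurentSeries A, ∀ (h1 : coeffMap A.subtype y ∈ F1 Qb N)
      (h2 : coeffMap (residue A) y ∈ K1 N A), (⟨coeffMap (residue A) y, h2⟩ : K1 N A) ∈
        IntermediateField.adjoin (ResidueField A) (Set.range (RD N A).ρ) := by
    intro y h1 h2
    have h3 : (⟨coeffMap (residue A) y, h2⟩ : K1 N A) =
        (RD N A).ρ ⟨⟨coeffMap A.subtype y, h1⟩, mem_RD_of_int y h1 h2⟩ :=
      Subtype.ext (rho_RD_of_int y h1 h2).symm
    rw [h3]
    exact IntermediateField.subset_adjoin _ _ ⟨_, rfl⟩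
  have hle : K1 N A ≤ IntermediateField.lift
      (IntermediateField.adjoin (ResidueField A) (Set.range (RD N A).ρ)) := by
    refine sup_le ?_ ?_
    · rw [modularFunctionFieldFullC, IntermediateField.adjoin_le_iff]
      rintro x ⟨d, hd0, hd, rfl⟩
      have h1 : coeffMap A.subtype (qExpand A d (jqModC A)) ∈ F1 Qb N := by
        rw [ModularCurve.coeffMap_qExpand, ModularCurve.coeffMap_jqModC]
        exact full_le_F1 (IntermediateField.subset_adjoin _ _ ⟨d, hd0, hd, rfl⟩)
      have h3 : coeffMap (residue A) (qExpand A d (jqModC A)) =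
          qExpand (ResidueField A) d (jqModC (ResidueField A)) := by
        rw [ModularCurve.coeffMap_qExpand, ModularCurve.coeffMap_jqModC]
      have h2 : coeffMap (residue A) (qExpand A d (jqModC A)) ∈ K1 N A := by
        rw [h3]
        exact full_le_K1 (IntermediateField.subset_adjoin _ _ ⟨d, hd0, hd, rfl⟩)
      have h4 := hkey _ h1 h2
      rw [← h3]
      exact ⟨_, h4, rfl⟩
    · rw [IntermediateField.adjoin_le_iff]
      rintro _ rfl
      have h3 : coeffMap (residue A) (hS A N (1 : ZMod N)) =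
          hS (ResidueField A) N (1 : ZMod N) := coeffMap_hS _ _
      have h1 : coeffMap A.subtype (hS A N (1 : ZMod N)) ∈ F1 Qb N := by
        rw [coeffMap_hS]
        have := (yF Qb hN 1).2
        rwa [coe_yF, Units.val_one] at this
      have h2 : coeffMap (residue A) (hS A N (1 : ZMod N)) ∈ K1 N A := by
        rw [h3]; exact hS_mem_K1
      have h4 := hkey _ h1 h2
      rw [← h3]
      exact ⟨_, h4, rfl⟩
  rw [eq_top_iff]
  rintro g -
  obtain ⟨z, hz, hzg⟩ := hle g.2
  have : z = g := Subtype.ext hzg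
  rw [← this]
  exact hz

/-- the conclusion for functions with integral expansions -/
def Concl (N : ℕ) [NeZero N] (A : ValuationSubring Qb) (m : ℕ) : Prop :=
  (∀ x : F1 Qb N, (x : LaurentSeries Qb) ∈ intL A → x ∈ (RD N A).Z) ∧
  ∀ a b : (RD N A).Z, (RD N A).ρ a = (RD N A).ρ b → (RD N A).ρ b ≠ 0 →
    (∀ v : Place Qb (F1 Qb N), (m : ℤ) ∣ v.ord ((a : F1 Qb N) / b)) →
    ∃ w : F1 Qb N, w ^ m = (a : F1 Qb N) / b

theorem coeffMap_mem_intL (y : LaurentSeries A) : coeffMap A.subtype y ∈ intL A := ⟨y, rfl⟩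

theorem coe_mem_intL (x : (RD N A).Z) : (((x : F1 Qb N)) : LaurentSeries Qb) ∈ intL A := by
  obtain ⟨y, hy, -⟩ := mem_RD.mp x.2
  rw [← hy]
  exact coeffMap_mem_intL y

theorem redL_coe (x : (RD N A).Z) :
    redL A ⟨((x : F1 Qb N) : LaurentSeries Qb), coe_mem_intL x⟩ = ((RD N A).ρ x :
      LaurentSeries (ResidueField A)) := by
  obtain ⟨y, hy, hy2⟩ := mem_RD.mp x.2
  rw [rho_RD x (y := y) hy]
  have h1 : (⟨((x : F1 Qb N) : LaurentSeries Qb), coe_mem_intL x⟩ : intL A) =
      ⟨coeffMap A.subtype y, coeffMap_mem_intL y⟩ := Subtype.ext hy.symm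
  rw [h1]
  exact Q.redL_coeffMap y _

/-- separability over the simple field -/
theorem sep_of {ℓ : ℕ} (hℓ : ℓ.Prime) (hA : A.LiesOverPrime ℓ) (hN1 : N ≠ 1)
    (hM : (N : ResidueField A) ≠ 0)
    {f : LaurentSeries (ResidueField A)}
    (hf : f ∈ modularFunctionFieldFullC (ResidueField A) N)
    (hj : jqModC (ResidueField A) ∈ (ResidueField A)⟮f⟯) (t : K1 N A)
    (ht : (t : LaurentSeries (ResidueField A)) = f) :
    Algebra.IsSeparable (ResidueField A)⟮t⟯ (K1 N A) := by
  have hlek : (ResidueField A)⟮f⟯ ≤ modularFunctionFieldFullC (ResidueField A) N := by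
    rw [adjoin_simple_le_iff]; exact hf
  rw [isSeparable_adjoin_iff, ht]
  refine isSeparable_K1 hℓ hA hM hN1 hlek ?_
  haveI := H11Q.isAlgClosed_residueField A
  have h3 := isSeparable_Fk (ResidueField A) N hM
  let tt : modularFunctionFieldFullC (ResidueField A) N := ⟨f, hf⟩
  have h4 : Algebra.IsSeparable (ResidueField A)⟮tt⟯
      (modularFunctionFieldFullC (ResidueField A) N) := by
    haveI := h3
    refine isSeparable_of_mem (a := tK (ResidueField A) N) ?_
    have h5 : lift (ResidueField A)⟮tt⟯ = (ResidueField A)⟮f⟯ :=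
      lift_adjoin_simple _ _ tt
    rw [← h5] at hj
    obtain ⟨y, hy, hyj⟩ := hj
    have : y = tK (ResidueField A) N := Subtype.ext hyj
    rw [← this]
    exact hy
  exact (isSeparable_adjoin_iff _ tt).mp h4

theorem level_deg {r : ℕ} (hr : r.Prime) (hrM : r ∣ N) (hM : (N : ResidueField A) ≠ 0) :
    ∃ n₀ : ℕ, 0 < n₀ ∧
      (modularFunctionFieldFullC Qb r).relfinrank (modularFunctionFieldFullC Qb N) = n₀ ∧
      (modularFunctionFieldFullC (ResidueField A) r).relfinrank
        (modularFunctionFieldFullC (ResidueField A) N) = n₀ := by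
  have hMK : (N : AlgebraicClosure ℚ) ≠ 0 := Nat.cast_ne_zero.mpr (NeZero.ne N)
  refine ⟨(modularFunctionFieldFullC (ResidueField A) r).relfinrank
    (modularFunctionFieldFullC (ResidueField A) N), ?_, ?_, rfl⟩
  · have h3 := relfinrank_level (ResidueField A) N hr hrM hM
    have h4 := Igusa.dedekindPsi_pos (NeZero.ne N)
    rw [← h3] at h4
    exact Nat.pos_of_ne_zero (fun h0 => by rw [h0, mul_zero] at h4; exact lt_irrefl _ h4)
  · have h4 := relfinrank_level Qb N hr hrM hMK
    have h5 := relfinrank_level (ResidueField A) N hr hrM hM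
    rw [← h5] at h4
    exact Nat.eq_of_mul_eq_mul_left (Nat.succ_pos r) h4

theorem deg_F1 (hN1 : N ≠ 1) {f : LaurentSeries Qb}
    (hf : f ∈ modularFunctionFieldFullC Qb N) (t : F1 Qb N) (ht : (t : LaurentSeries Qb) = f) :
    Module.finrank Qb⟮t⟯ (F1 Qb N) =
      (Qb⟮f⟯).relfinrank (modularFunctionFieldFullC Qb N) * Fintype.card (Iu N) := by
  have hleK : Qb⟮f⟯ ≤ modularFunctionFieldFullC Qb N := by
    rw [adjoin_simple_le_iff]; exact hf
  rw [finrank_adjoin_eq, ht, ← relfinrank_F1 hN1,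
    relfinrank_mul_relfinrank hleK (full_le_F1 (N := N))]

theorem deg_K1 {ℓ : ℕ} (hℓ : ℓ.Prime) (hA : A.LiesOverPrime ℓ) (hN1 : N ≠ 1)
    (hM : (N : ResidueField A) ≠ 0) (W : WRed A N)
    {f : LaurentSeries (ResidueField A)}
    (hf : f ∈ modularFunctionFieldFullC (ResidueField A) N) (t : K1 N A)
    (ht : (t : LaurentSeries (ResidueField A)) = f) :
    Module.finrank (ResidueField A)⟮t⟯ (K1 N A) =
      ((ResidueField A)⟮f⟯).relfinrank (modularFunctionFieldFullC (ResidueField A) N) *
        Fintype.card (Iu N) := by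
  have hlek : (ResidueField A)⟮f⟯ ≤ modularFunctionFieldFullC (ResidueField A) N := by
    rw [adjoin_simple_le_iff]; exact hf
  rw [finrank_adjoin_eq, ht, ← relfinrank_K1 hℓ hA hM hN1 W,
    relfinrank_mul_relfinrank hlek (full_le_K1 (N := N) (A := A))]

end Fermat.Agent.H23.FKL
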