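import Fermat.Agent.H23.FKL.Haupt1
import Fermat.Agent.H23.FKL.Gen
import Fermat.Agent.H18J.IntB

set_option autoImplicit false
set_option linter.unusedSectionVars false
set_option linter.style.haveILetI false
set_option synthInstance.maxHeartbeats 400000

/-!
# The key property for the function field of `Γ₁(N)`

-/

noncomputable section

open Polynomial IntermediateField CongruenceSubgroup AlgebraicCurve
open IsLocalRing (residue ResidueField residue_eq_zero_iff mem_maximalIdeal residue_surjective)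

namespace Fermat.Agent.H23.FKL

open Fermat.Agent.H22 (dChar GamH exists_dChar_eq)
open Fermat.Agent.H18J
open Fermat.Agent.Q (Red intL redL)
open Fermat.Agent.H27 (RatCoord BrData EtBasis RedMap gauss Small BV RankOne ratCoord_gen)
open ModularCurve (coeffMap qExpand jqModC modularFunctionFieldFullC)

local notation "Qb" => AlgebraicClosure ℚ

variable [Algebra Qb ℂ] {N : ℕ} [NeZero N] {A : ValuationSubring Qb}

/-- functions with integral expansions have reduction in `K1` -/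
theorem mem_Z_of (hfrac : ∀ x : F1 Qb N, x ≠ 0 → ∃ c : Qb, c ≠ 0 ∧ ∃ a b : (RD N A).Z,
      (RD N A).ρ a ≠ 0 ∧ (RD N A).ρ b ≠ 0 ∧ (b : F1 Qb N) * x = algebraMap Qb (F1 Qb N) c * a)
    (x : F1 Qb N) (hx : (x : LaurentSeries Qb) ∈ intL A) : x ∈ (RD N A).Z := by
  by_cases h0 : x = 0
  · rw [h0]; exact zero_mem _
  obtain ⟨c, hc, a, b, ha, hb, hab⟩ := hfrac x h0
  have h1 := congrArg (fun z : F1 Qb N => (z : LaurentSeries Qb)) hab
  simp only [MulMemClass.coe_mul] at h1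
  have h2 : ((algebraMap Qb (F1 Qb N) c : F1 Qb N) : LaurentSeries Qb) = HahnSeries.C c := by
    rw [← Q.algebraMap_eq_C]; rfl
  rw [h2] at h1
  have ha' : redL A ⟨((a : F1 Qb N) : LaurentSeries Qb), coe_mem_intL a⟩ ≠ 0 := by
    rw [redL_coe]
    intro h3
    exact ha (Subtype.ext h3)
  have hbx : HahnSeries.C c * ((a : F1 Qb N) : LaurentSeries Qb) ∈ intL A := by
    rw [← h1]; exact mul_mem (coe_mem_intL b) hx
  have hcA : c ∈ A := mem_of_C_mul_mem (coe_mem_intL a) ha' hbx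
  have h3 : redL A ⟨_, coe_mem_intL b⟩ * redL A ⟨(x : LaurentSeries Qb), hx⟩ =
      redL A ⟨HahnSeries.C c, Q.C_mem_intL hcA⟩ * redL A ⟨_, coe_mem_intL a⟩ := by
    rw [← map_mul, ← map_mul]
    congr 1
    exact Subtype.ext h1
  rw [redL_coe, redL_coe, Q.redL_C hcA] at h3
  have hb' : ((RD N A).ρ b : LaurentSeries (ResidueField A)) ≠ 0 := fun h4 =>
    hb (Subtype.ext h4)
  have h4 : redL A ⟨(x : LaurentSeries Qb), hx⟩ ∈ K1 N A := by
    have h5 : redL A ⟨(x : LaurentSeries Qb), hx⟩ =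
        (HahnSeries.C (residue A ⟨c, hcA⟩) * ((RD N A).ρ a : LaurentSeries (ResidueField A))) /
          ((RD N A).ρ b : LaurentSeries (ResidueField A)) := by
      rw [← h3, mul_div_cancel_left₀ _ hb']
    rw [h5]
    refine div_mem (mul_mem ?_ ((RD N A).ρ a).2) ((RD N A).ρ b).2
    rw [← Q.algebraMap_eq_C]
    exact (K1 N A).algebraMap_mem _
  obtain ⟨y, hy⟩ := hx
  rw [mem_RD]
  refine ⟨y, hy, ?_⟩
  have h6 : (⟨(x : LaurentSeries Qb), ⟨y, hy⟩⟩ : intL A) =
      ⟨coeffMap A.subtype y, coeffMap_mem_intL y⟩ := Subtype.ext hy.symm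
  rw [h6] at h4
  have h7 := Q.redL_coeffMap y (coeffMap_mem_intL y)
  rwa [h7] at h4

set_option maxHeartbeats 1600000 in
theorem concl_mk {ℓ : ℕ} (hℓ : ℓ.Prime) (hA : A.LiesOverPrime ℓ) (t : (RD N A).Z)
    (h : RatCoord Qb (AdjoinSimple.gen Qb (t : F1 Qb N))) (J : Qb⟮(t : F1 Qb N)⟯)
    (hJ : (J : F1 Qb N) = jK Qb (GamH N (⊥ : Subgroup (ZMod N)ˣ)))
    (B : BrData A (AdjoinSimple.gen Qb (t : F1 Qb N)) J)
    (B' : BrData A (AdjoinSimple.gen Qb (t : F1 Qb N))⁻¹ J) {n : ℕ}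
    (e : EtBasis (gauss A h) (F1 Qb N) (Fin n)) (R : RedMap h e (RD N A).Z (RD N A).ρ)
    {m : ℕ} (hm : (m : ResidueField A) ≠ 0) (a b : (RD N A).Z)
    (hab : (RD N A).ρ a = (RD N A).ρ b) (hb : (RD N A).ρ b ≠ 0)
    (hdiv : ∀ v : Place Qb (F1 Qb N), (m : ℤ) ∣ v.ord ((a : F1 Qb N) / b)) :
    ∃ w : F1 Qb N, w ^ m = (a : F1 Qb N) / b := by
  have hs := R.small_div_sub_one a b hab hb
  obtain ⟨w, hw, -⟩ := key_powF N h B B' hJ e (H27.rankOne_of hℓ hA) m hm _ hs hdiv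
  exact ⟨w, hw⟩

end Fermat.Agent.H23.FKL
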