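import Fermat.Agent.H23.FKL.KeyW
import Fermat.Agent.H03K.PrimFK
import Fermat.Agent.DS2.Wire

set_option autoImplicit false
set_option linter.unusedSectionVars false

/-!
# The key property at all levels divisible by `2` or `3`

-/

noncomputable section

namespace Fermat.Agent.H23.FKL

open Fermat.Agent.H27 (Hyp)

local notation "Qb" => AlgebraicClosure ℚ

variable [Algebra Qb ℂ]

theorem wRed {N : ℕ} [NeZero N] {A : ValuationSubring Qb} {ℓ : ℕ} (hℓ : ℓ.Prime)
    (hA : A.LiesOverPrime ℓ) (hN : ¬ ℓ ∣ N) : WRed A N := fun g x hx =>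
  H03K.wred hℓ hA hN g x hx

theorem keyAll : DS2.KeyAll := by
  intro N _ h23 m hm q hq hqN hqm A hA
  have hyp : Hyp N q := by
    refine ⟨hqN, ?_⟩
    rcases h23 with h | h
    · exact Or.inl ⟨h, fun h2 => hqN (h2 ▸ h)⟩
    · exact Or.inr ⟨h, fun h3 => hqN (h3 ▸ h)⟩
  exact ⟨keyFK_of_W hq hA hyp (wRed hq hA hqN) hqm, H03K.primFK hq hA hqN hm⟩

end Fermat.Agent.H23.FKL
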