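import Fermat.Agent.H23.FKL.Haupt2

set_option autoImplicit false
set_option linter.unusedSectionVars false
set_option linter.style.haveILetI false
set_option synthInstance.maxHeartbeats 400000

/-!
# `KeyFK` from the invariance of the Gauss valuation

-/

noncomputable section

open Polynomial IntermediateField CongruenceSubgroup AlgebraicCurve
open IsLocalRing (residue ResidueField residue_eq_zero_iff mem_maximalIdeal residue_surjective)

namespace Fermat.Agent.H23.FKL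

open Fermat.Agent.H22 (dChar GamH exists_dChar_eq)
open Fermat.Agent.H18J
open Fermat.Agent.Q (Red intL redL)
open Fermat.Agent.H27 (RatCoord BrData EtBasis RedMap gauss Small BV RankOne ratCoord_gen
  cc_cc order_cc trans_coe transcendental_of_order Hyp natCast_residue_ne_zero brTwo brTwo'
  brThree brThree' j_mem_two j_mem_three)
open Fermat.Agent.Igusa (cc)
open ModularCurve (coeffMap qExpand jqModC modularFunctionFieldFullC full_degeneracyC_le)

local notation "Qb" => AlgebraicClosure ℚ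

variable [Algebra Qb ℂ] {N : ℕ} [NeZero N] {A : ValuationSubring Qb}

theorem jK_mem_adjoin {f : LaurentSeries Qb} (hj : jqModC Qb ∈ Qb⟮f⟯) (t : F1 Qb N)
    (ht : (t : LaurentSeries Qb) = f) : jK Qb (GamH N (⊥ : Subgroup (ZMod N)ˣ)) ∈ Qb⟮t⟯ := by
  have h3 : lift Qb⟮t⟯ = Qb⟮(t : LaurentSeries Qb)⟯ := lift_adjoin_simple Qb (F1 Qb N) t
  rw [← ht, ← h3] at hj
  obtain ⟨y, hy, hyj⟩ := hj
  have : y = jK Qb (GamH N (⊥ : Subgroup (ZMod N)ˣ)) := Subtype.ext hyj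
  rw [← this]
  exact hy

theorem trans_of_cc {f : LaurentSeries ℤ} (h1 : f.coeff (-1) = 1)
    (h2 : ∀ n, n < -1 → f.coeff n = 0) {k : Type} [Field k] [IsAlgClosed k]
    {F₁ : IntermediateField k (LaurentSeries k)} (t : F₁) (ht : (t : LaurentSeries k) = cc k f) :
    Transcendental k t := by
  apply trans_coe
  apply transcendental_of_order
  rw [ht, order_cc h1 h2]
  norm_num

/-- the choice of the parameter -/
theorem exists_t {r : ℕ} (hr : r.Prime) (hrM : r ∣ N) (hM : (N : ResidueField A) ≠ 0)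
    (f : LaurentSeries ℤ)
    (hf : ∀ (k : Type) [Field k], (r : k) ≠ 0 → modularFunctionFieldFullC k r = k⟮cc k f⟯) :
    ∃ t : (RD N A).Z, ((t : F1 Qb N) : LaurentSeries Qb) = cc Qb f ∧
      cc Qb f ∈ modularFunctionFieldFullC Qb N ∧
      ((RD N A).ρ t : LaurentSeries (ResidueField A)) = cc (ResidueField A) f ∧
      cc (ResidueField A) f ∈ modularFunctionFieldFullC (ResidueField A) N := by
  haveI : NeZero r := ⟨hr.ne_zero⟩
  have hrk : (r : ResidueField A) ≠ 0 := H27.natCast_ne_zero_of_dvd' hrM hM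
  have hrK : (r : AlgebraicClosure ℚ) ≠ 0 := Nat.cast_ne_zero.mpr hr.ne_zero
  have hmemK0 : cc Qb f ∈ modularFunctionFieldFullC Qb N := by
    apply full_degeneracyC_le _ hrM
    rw [hf _ hrK]
    exact mem_adjoin_simple_self _ _
  have hmemK : cc Qb f ∈ F1 Qb N := full_le_F1 hmemK0
  have hmemk0 : cc (ResidueField A) f ∈ modularFunctionFieldFullC (ResidueField A) N := by
    apply full_degeneracyC_le _ hrM
    rw [hf _ hrk]
    exact mem_adjoin_simple_self _ _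
  have hmemk : cc (ResidueField A) f ∈ K1 N A := full_le_K1 hmemk0
  have hZ : (⟨cc Qb f, hmemK⟩ : F1 Qb N) ∈ (RD N A).Z := by
    rw [mem_RD]
    refine ⟨cc A f, cc_cc _ f, ?_⟩
    rw [cc_cc]
    exact hmemk
  refine ⟨⟨_, hZ⟩, rfl, hmemK0, ?_, hmemk0⟩
  rw [rho_RD (⟨⟨cc Qb f, hmemK⟩, hZ⟩ : (RD N A).Z) (y := cc A f) (cc_cc _ f), cc_cc]

set_option maxHeartbeats 1600000 in
theorem concl_of {ℓ : ℕ} (hℓ : ℓ.Prime) (hA : A.LiesOverPrime ℓ) (hN1 : N ≠ 1) (W : WRed A N)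
    {r : ℕ} (hr : r.Prime) (hrM : r ∣ N) (hM : (N : ResidueField A) ≠ 0)
    (f : LaurentSeries ℤ) (h1 : f.coeff (-1) = 1) (h2 : ∀ n, n < -1 → f.coeff n = 0)
    (hf : ∀ (k : Type) [Field k], (r : k) ≠ 0 → modularFunctionFieldFullC k r = k⟮cc k f⟯)
    (hj : ∀ (k : Type) [Field k], jqModC k ∈ k⟮cc k f⟯)
    (hB : ∀ (F₁ : IntermediateField (AlgebraicClosure ℚ) (LaurentSeries (AlgebraicClosure ℚ)))
      (t : F₁) (_ : (t : LaurentSeries (AlgebraicClosure ℚ)) = cc (AlgebraicClosure ℚ) f)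
      (j : F₁) (_ : (j : LaurentSeries (AlgebraicClosure ℚ)) = jqModC (AlgebraicClosure ℚ))
      (x J : (AlgebraicClosure ℚ)⟮t⟯), (x : F₁) = t → (J : F₁) = j →
      Nonempty (BrData A x J) ∧ Nonempty (BrData A x⁻¹ J)) {m : ℕ}
    (hm : (m : ResidueField A) ≠ 0) : Concl N A m := by
  haveI := H11Q.isAlgClosed_residueField A
  have hrk : (r : ResidueField A) ≠ 0 := H27.natCast_ne_zero_of_dvd' hrM hM
  have hrK : (r : AlgebraicClosure ℚ) ≠ 0 := Nat.cast_ne_zero.mpr hr.ne_zero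
  obtain ⟨t, ht, hmK, hρt, hmk⟩ := exists_t (N := N) (A := A) hr hrM hM f hf
  have hJ := jK_mem_adjoin (N := N) (hj Qb) (t : F1 Qb N) ht
  have htr : Transcendental Qb (t : F1 Qb N) := trans_of_cc h1 h2 _ ht
  have hρtr : Transcendental (ResidueField A) ((RD N A).ρ t) := trans_of_cc h1 h2 _ hρt
  obtain ⟨n₀, hn₀, hnK, hnk⟩ := level_deg (N := N) (A := A) hr hrM hM
  rw [hf _ hrK] at hnK
  rw [hf _ hrk] at hnk
  have hF := deg_F1 hN1 hmK (t : F1 Qb N) ht
  have hκ := deg_K1 hℓ hA hN1 hM W hmk ((RD N A).ρ t) hρt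
  rw [hnK] at hF
  rw [hnk] at hκ
  have hcard : 0 < Fintype.card (Iu N) := Fintype.card_pos
  have hsep := sep_of hℓ hA hN1 hM hmk (hj (ResidueField A)) ((RD N A).ρ t) hρt
  obtain ⟨e, R, hfrac⟩ := exists_redMap (RD N A) (range_RD hN1) t (ratCoord_gen htr) hρtr
    (Nat.mul_pos hn₀ hcard) hF hκ hsep
  obtain ⟨⟨B⟩, ⟨B'⟩⟩ := hB (F1 Qb N) (t : F1 Qb N) ht
    (jK Qb (GamH N (⊥ : Subgroup (ZMod N)ˣ))) rfl (AdjoinSimple.gen Qb (t : F1 Qb N))
    ⟨_, hJ⟩ rfl rfl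
  exact ⟨mem_Z_of hfrac, fun a b hab hb hdiv =>
    concl_mk hℓ hA t (ratCoord_gen htr) ⟨_, hJ⟩ rfl B B' e R hm a b hab hb hdiv⟩

/-- **The conclusion from the invariance of the Gauss valuation.** -/
theorem concl_of_W {ℓ : ℕ} (hℓ : ℓ.Prime) (hA : A.LiesOverPrime ℓ) (hyp : Hyp N ℓ)
    (W : WRed A N) {m : ℕ} (hm : (m : ResidueField A) ≠ 0) : Concl N A m := by
  haveI := H11Q.isAlgClosed_residueField A
  have hM : (N : ResidueField A) ≠ 0 := natCast_residue_ne_zero hℓ hA hyp.1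
  have hN1 : N ≠ 1 := by
    rintro rfl
    rcases hyp.2 with ⟨h, -⟩ | ⟨h, -⟩ <;> omega
  rcases hyp.2 with ⟨h2, hℓ2⟩ | ⟨h3, hℓ3⟩
  · have h2k : (2 : ResidueField A) ≠ 0 := by
      have := natCast_residue_ne_zero hℓ hA (n := 2) (fun h =>
        hℓ2 ((Nat.prime_dvd_prime_iff_eq hℓ Nat.prime_two).mp h))
      exact_mod_cast this
    refine concl_of hℓ hA hN1 W Nat.prime_two h2 hM H29.f2 H29.f2_coeff_neg_one
      (fun n hn => H29.f2_coeff_of_lt hn)
      (fun k _ hk => H29.full_two_eq (by exact_mod_cast hk)) j_mem_two ?_ hm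
    intro F₁ t ht j hj x J hx hJ
    have hrel : J * x ^ 2 = (x + 256) ^ 3 := by
      apply Subtype.ext
      apply Subtype.ext
      have h4 : ((x : F₁) : LaurentSeries (AlgebraicClosure ℚ)) = cc _ H29.f2 := by rw [hx, ht]
      have h5 : ((J : F₁) : LaurentSeries (AlgebraicClosure ℚ)) = jqModC _ := by rw [hJ, hj]
      have := H29.F2_j (AlgebraicClosure ℚ)
      rw [← h4, ← h5] at this
      exact this
    have hx0 : x ≠ 0 := by
      intro h0
      have h4 : ((x : F₁) : LaurentSeries (AlgebraicClosure ℚ)) = cc _ H29.f2 := by rw [hx, ht]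
      rw [h0] at h4
      exact H29.F2_ne (AlgebraicClosure ℚ) h4.symm
    exact ⟨⟨brTwo h2k x J hrel⟩, ⟨brTwo' x J hx0 hrel⟩⟩
  · have h3k : (3 : ResidueField A) ≠ 0 := by
      have := natCast_residue_ne_zero hℓ hA (n := 3) (fun h =>
        hℓ3 ((Nat.prime_dvd_prime_iff_eq hℓ Nat.prime_three).mp h))
      exact_mod_cast this
    refine concl_of hℓ hA hN1 W Nat.prime_three h3 hM H29.f3 H29.f3_coeff_neg_one
      (fun n hn => H29.f3_coeff_of_lt hn)
      (fun k _ hk => H29.full_three_eq (by exact_mod_cast hk)) j_mem_three ?_ hm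
    intro F₁ t ht j hj x J hx hJ
    have hrel : J * x ^ 3 = (x + 27) * (x + 243) ^ 3 := by
      apply Subtype.ext
      apply Subtype.ext
      have h4 : ((x : F₁) : LaurentSeries (AlgebraicClosure ℚ)) = cc _ H29.f3 := by rw [hx, ht]
      have h5 : ((J : F₁) : LaurentSeries (AlgebraicClosure ℚ)) = jqModC _ := by rw [hJ, hj]
      have := H29.F3_j (AlgebraicClosure ℚ)
      rw [← h4, ← h5] at this
      exact this
    have hx0 : x ≠ 0 := by
      intro h0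
      have h4 : ((x : F₁) : LaurentSeries (AlgebraicClosure ℚ)) = cc _ H29.f3 := by rw [hx, ht]
      rw [h0] at h4
      exact H29.F3_ne (AlgebraicClosure ℚ) h4.symm
    exact ⟨⟨brThree h3k x J hrel⟩, ⟨brThree' x J hx0 hrel⟩⟩

/-- **`KeyFK` for `Γ₁(N)`** -/
theorem keyFK_of_W {ℓ : ℕ} (hℓ : ℓ.Prime) (hA : A.LiesOverPrime ℓ) (hyp : Hyp N ℓ)
    (W : WRed A N) {m : ℕ} (hm : ¬ ℓ ∣ m) : H11J.KeyFK (⊥ : Subgroup (ZMod N)ˣ) A m := by
  obtain ⟨hZ, hkey⟩ := concl_of_W hℓ hA hyp W (natCast_residue_ne_zero hℓ hA hm)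
  intro a b ha hb hab hb0 hdiv
  have haZ := hZ a ha
  have hbZ := hZ b hb
  have h1 : ((RD N A).ρ ⟨a, haZ⟩ : LaurentSeries (ResidueField A)) = redL A ⟨_, ha⟩ :=
    (redL_coe ⟨a, haZ⟩).symm
  have h2 : ((RD N A).ρ ⟨b, hbZ⟩ : LaurentSeries (ResidueField A)) = redL A ⟨_, hb⟩ :=
    (redL_coe ⟨b, hbZ⟩).symm
  obtain ⟨w, hw⟩ := hkey ⟨a, haZ⟩ ⟨b, hbZ⟩
    (Subtype.ext (by rw [h1, h2, hab])) (fun h0 => hb0 (by rw [← h2, h0]; rfl)) hdiv
  refine ⟨w, ?_⟩
  have hb' : b ≠ 0 := by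
    rintro rfl
    apply hb0
    have : (⟨((0 : FK Qb (GamH N (⊥ : Subgroup (ZMod N)ˣ))) : LaurentSeries Qb), hb⟩ : intL A) =
        0 := Subtype.ext rfl
    rw [this, map_zero]
  rw [hw]
  exact (mul_div_cancel₀ a hb').symm

end Fermat.Agent.H23.FKL
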