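import Fermat.Agent.H18J.PlaceDeg
import Fermat.Agent.H27.KeyMod

set_option autoImplicit false
set_option linter.unusedSectionVars false
set_option synthInstance.maxHeartbeats 400000

/-!
# Local data and the key theorem for the function fields `FK K Γ`

-/

open Polynomial

namespace Fermat.Agent.H23.FKL

noncomputable section

open AlgebraicCurve
open Fermat.Agent.H18 (jfun order_qExpand qExpand_algebraMap)
open Fermat.Agent.H18J
open Fermat.Agent.H27 (gInd gInd_pos exists_pt LocData RatCoord locData_mk exists_theta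
  root_mem BrData Small gauss BV RankOne EtBasis kk redP incP cE
  not_small_one exists_kummer kummer_false root_small gauss_alg intSub_closed cE_mem_BV)
open ModularCurve (qExpand)

section mu

variable {K : Type} [Field K] [Algebra K ℂ] [IsAlgClosed K] {N : ℕ} [NeZero N]

variable (N) in
/-- expansions of the Galois closure at points over `c` -/
theorem exists_mu (c : K) : ∃ μ : MF K N →+* LaurentSeries K,
    (∀ c : K, μ (algebraMap K _ c) = algebraMap K (LaurentSeries K) c) ∧ ∃ g : ℕ, 0 < g ∧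
      g ∣ gInd c ∧ μ (jM K N - algebraMap K _ c) ≠ 0 ∧
      (μ (jM K N - algebraMap K _ c)).order = g := by
  obtain ⟨τ, hτ, hord⟩ := exists_pt c
  have : CharZero K := (algebraMap K ℂ).charZero
  have : Algebra.IsSeparable (RatFunc K) (MF K N) := IsGalois.to_isSeparable
  obtain ⟨μ, hμ, hμo⟩ := H26.exists_place_expansion (ptPlace (N := N) hτ) (H18.deg_eq_one _)
  have h1 := (ptOrd N hτ).g_eq_idx_mul_ord (jM_sub_ne_zero (N := N) c)
  rw [g_ptOrd, hord] at h1
  change _ = _ * (ptPlace (N := N) hτ).ord _ at h1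
  have h2 := (ptOrd N hτ).idx_pos
  have h3 : 0 < (ptPlace (N := N) hτ).ord (jM K N - algebraMap K _ c) := by
    have h4 : (0 : ℤ) < (ptOrd N hτ).idx * (ptPlace (N := N) hτ).ord
      (jM K N - algebraMap K _ c) := by
      rw [← h1]; exact_mod_cast gInd_pos c
    exact (mul_pos_iff_of_pos_left (by exact_mod_cast h2)).mp h4
  obtain ⟨g, hg⟩ := Int.eq_ofNat_of_zero_le h3.le
  refine ⟨μ, hμ, g, ?_, ?_, ?_, ?_⟩
  · rw [hg] at h3; exact_mod_cast h3
  · rw [hg] at h1
    exact ⟨_, by rw [mul_comm]; exact_mod_cast h1⟩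
  · rw [ne_eq, map_eq_zero]; exact jM_sub_ne_zero c
  · rw [hμo _ (jM_sub_ne_zero c), hg]

variable (K N) in
/-- expansion of the Galois closure at a cusp -/
theorem exists_mu_inf : ∃ μ : MF K N →+* LaurentSeries K,
    (∀ c : K, μ (algebraMap K _ c) = algebraMap K (LaurentSeries K) c) ∧ ∃ g : ℕ, 0 < g ∧
      μ (jM K N)⁻¹ ≠ 0 ∧ (μ (jM K N)⁻¹).order = g := by
  have : CharZero K := (algebraMap K ℂ).charZero
  have : Algebra.IsSeparable (RatFunc K) (MF K N) := IsGalois.to_isSeparable
  obtain ⟨μ, hμ, hμo⟩ := H26.exists_place_expansion (infPl K N) (H18.deg_eq_one _)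
  have h1 := (infOrd K N).g_eq_idx_mul_ord (jM_ne_zero (K := K) (N := N))
  rw [g_infOrd_jM] at h1
  change _ = _ * (infPl K N).ord _ at h1
  have h2 := (infOrd K N).idx_pos
  have h4 := NeZero.pos N
  have hne := inv_ne_zero (jM_ne_zero (K := K) (N := N))
  have h5 : (infPl K N).ord (jM K N)⁻¹ = -(infPl K N).ord (jM K N) := by
    have := (infPl K N).ord_inv (jM K N)
    exact this
  have h3 : 0 < (infPl K N).ord (jM K N)⁻¹ := by
    rw [h5]
    by_contra hneg
    push Not at hneg
    have : 0 ≤ ((infOrd K N).idx : ℤ) * (infPl K N).ord (jM K N) :=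
      mul_nonneg (by positivity) (by omega)
    omega
  obtain ⟨g, hg⟩ := Int.eq_ofNat_of_zero_le h3.le
  refine ⟨μ, hμ, g, ?_, ?_, ?_⟩
  · rw [hg] at h3; exact_mod_cast h3
  · rw [ne_eq, map_eq_zero]; exact hne
  · rw [hμo _ hne, hg]

end mu

section split

variable {K : Type} [Field K] [Algebra K ℂ] [IsAlgClosed K] {N : ℕ} [NeZero N]
  {Γ : Subgroup (Matrix.SpecialLinearGroup (Fin 2) ℤ)} [IsLevel N Γ]

attribute [local instance] algFK algFM

/-- the conjugates of elements of `FK K Γ` over `K(j)` lie in the Galois closure -/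
theorem split_FK {L R' : Type*} [Field L] [Field R'] (ι : L →+* R') (σ : FK K Γ →+* R')
    (θ₀ : MF K N →+* L)
    (hc : ∀ c : K, σ (algebraMap K _ c) = ι (θ₀ (algebraMap K _ c)))
    (hj : σ (jK K Γ) = ι (θ₀ (jM K N))) (z : FK K Γ) : ∃ w : L, σ z = ι w := by
  have := towerKFM K N Γ
  have := towerRFM K N Γ
  have hcomp : σ.comp (algebraMap (RatFunc K) (FK K Γ)) =
      (ι.comp θ₀).comp (algebraMap (RatFunc K) (MF K N)) := by
    apply IsLocalization.ringHom_ext (nonZeroDivisors K[X])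
    apply Polynomial.ringHom_ext
    · intro c
      rw [RingHom.comp_apply, RingHom.comp_apply, RingHom.comp_apply, RingHom.comp_apply,
        RatFunc.algebraMap_C, ← RatFunc.algebraMap_eq_C,
        ← IsScalarTower.algebraMap_apply K (RatFunc K) (MF K N),
        ← IsScalarTower.algebraMap_apply K (RatFunc K) (FK K Γ)]
      exact hc c
    · rw [RingHom.comp_apply, RingHom.comp_apply, RingHom.comp_apply, RingHom.comp_apply,
        RatFunc.algebraMap_X, algebraMap_X_MF, algebraMap_X_FK]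
      exact hj
  have hspl := (inferInstance : Normal (RatFunc K) (MF K N)).splits (embF K N Γ z)
  have hmon := minpoly.monic
    ((inferInstance : Normal (RatFunc K) (MF K N)).isIntegral (embF K N Γ z))
  set P := minpoly (RatFunc K) (embF K N Γ z) with hP
  have h1 : P.aeval z = 0 := by
    have h2 : P.aeval (algebraMap (FK K Γ) (MF K N) z) = 0 := minpoly.aeval _ _
    rw [aeval_algebraMap_apply] at h2
    exact (map_eq_zero_iff _ (algebraMap (FK K Γ) (MF K N)).injective).mp h2
  have h2 : P.eval₂ (σ.comp (algebraMap (RatFunc K) (FK K Γ))) (σ z) = 0 := by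
    rw [← hom_eval₂, ← aeval_def, h1, map_zero]
  rw [hcomp, ← eval₂_map, (hspl.eq_prod_roots_of_monic (hmon.map _)),
    eval₂_multiset_prod, Multiset.map_map, Multiset.prod_eq_zero_iff] at h2
  obtain ⟨r, -, hr⟩ := Multiset.mem_map.mp h2
  simp only [Function.comp, eval₂_sub, eval₂_X, eval₂_C] at hr
  exact ⟨θ₀ r, sub_eq_zero.mp hr⟩

end split

section main

variable {K : Type} [Field K] [Algebra K ℂ] [IsAlgClosed K]
  {Γ : Subgroup (Matrix.SpecialLinearGroup (Fin 2) ℤ)}
variable {𝕂 : Type*} [Field 𝕂] [Algebra K 𝕂]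
  {E : Type*} [Field E] [Algebra 𝕂 E] [FiniteDimensional 𝕂 E] {ι : Type} [Fintype ι]
  [Algebra K E] [IsScalarTower K 𝕂 E]

/-- `E` is generated over `𝕂` and `FK K Γ` by elements splitting over `K((s))`. -/
def GenF (i : FK K Γ →ₐ[K] E) (𝕂 : Type*) [Field 𝕂] [Algebra 𝕂 E] : Prop :=
  ∀ (σ : E →+* AlgebraicClosure (LaurentSeries K)),
    (∀ c : K, σ (algebraMap K E c) =
      algebraMap (LaurentSeries K) _ (algebraMap K (LaurentSeries K) c)) →
    (∀ z : 𝕂, ∃ w : LaurentSeries K, σ (algebraMap 𝕂 E z) = algebraMap (LaurentSeries K) _ w) →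
    (∀ z : FK K Γ, ∃ w : LaurentSeries K, σ (i z) = algebraMap (LaurentSeries K) _ w) →
    ∀ z : E, ∃ w : LaurentSeries K, σ z = algebraMap (LaurentSeries K) _ w

theorem exists_locF_aux (N : ℕ) [NeZero N] [IsLevel N Γ] (i : FK K Γ →ₐ[K] E) (hgen : GenF i 𝕂)
    (hι : Fintype.card ι = Module.finrank 𝕂 E)
    {y : 𝕂} (h : RatCoord K y) {J' : 𝕂} (j₀ : FK K Γ) (jm : MF K N)
    (hJ' : algebraMap 𝕂 E J' = i j₀)
    {U T G : K[X]} {a : K} {r k : ℕ} (hr : 0 < r) (hk : 0 < k)
    (hj : J' * aeval y T = aeval y U) (hU : U = (X - C a) ^ r * G) (hG : G.eval a ≠ 0)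
    (hT : T.eval a ≠ 0)
    (μ : MF K N →+* LaurentSeries K)
    (hμ : ∀ c : K, μ (algebraMap K _ c) = algebraMap K (LaurentSeries K) c)
    {g m : ℕ} (hm : 0 < m) (hkr : k * r = g * m)
    (hμ0 : μ jm ≠ 0) (hμo : (μ jm).order = g)
    (hjj : ∀ (σ : FK K Γ →+* AlgebraicClosure (LaurentSeries K))
      (μ' : MF K N →+* LaurentSeries K),
      (∀ c : K, σ (algebraMap K _ c) = algebraMap (LaurentSeries K) _ (algebraMap K _ c)) →
      (∀ c : K, μ' (algebraMap K _ c) = algebraMap K (LaurentSeries K) c) →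
      σ j₀ = algebraMap (LaurentSeries K) _ (μ' jm) →
      σ (jK K Γ) = algebraMap (LaurentSeries K) _ (μ' (jM K N))) :
    ∃ d : LocData y a E ι, d.e = k := by
  have : CharZero K := (algebraMap K ℂ).charZero
  haveI : NeZero m := ⟨hm.ne'⟩
  have hw0 : qExpand K m (μ jm) ≠ 0 := by
    rw [ne_eq, map_eq_zero_iff _ (RingHom.injective _)]; exact hμ0
  obtain ⟨θ, hθc, hθ0, hθo, hθj⟩ := exists_theta h hr hk hj hU hG hT (qExpand K m (μ jm)) hw0
    (by rw [order_qExpand m hμ0, hμo, hkr]; push_cast; ring)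
  refine locData_mk y a hι θ hθc hk hθ0 hθo ?_
  intro σ hσ
  have hσc : ∀ c : K, σ (algebraMap K E c) =
      algebraMap (LaurentSeries K) _ (algebraMap K (LaurentSeries K) c) := by
    intro c
    rw [IsScalarTower.algebraMap_apply K 𝕂 E, hσ, hθc]
  refine hgen σ hσc (fun z => ⟨_, hσ z⟩) ?_
  have hci : ∀ c : K, (σ.comp (i : FK K Γ →+* E)) (algebraMap K _ c) =
      algebraMap (LaurentSeries K) _ (algebraMap K _ c) := by
    intro c
    rw [RingHom.comp_apply]
    erw [i.commutes]
    exact hσc c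
  have hμ' : ∀ c : K, ((qExpand K m).comp μ) (algebraMap K _ c) =
      algebraMap K (LaurentSeries K) c := by
    intro c
    rw [RingHom.comp_apply, hμ, qExpand_algebraMap]
  refine split_FK (algebraMap (LaurentSeries K) _) (σ.comp (i : FK K Γ →+* E))
    ((qExpand K m).comp μ) ?_ ?_
  · intro c
    rw [hci, hμ']
  · refine hjj _ _ hci hμ' ?_
    rw [RingHom.comp_apply]
    change σ (i j₀) = _
    rw [← hJ', hσ, hθj]
    rfl

/-- **Local data for the modular cover in a general coordinate.** -/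
theorem exists_locF (N : ℕ) [NeZero N] [IsLevel N Γ] (i : FK K Γ →ₐ[K] E) (hgen : GenF i 𝕂)
    (hι : Fintype.card ι = Module.finrank 𝕂 E)
    {y : 𝕂} (h : RatCoord K y) {J : 𝕂} (hJ : algebraMap 𝕂 E J = i (jK K Γ))
    {U T : K[X]} (hUT : IsCoprime U T) (hj : J * aeval y T = aeval y U) (a : K) :
    ∃ d : LocData y a E ι, ∀ c : K, T.eval a ≠ 0 → U.eval a = c * T.eval a →
      gInd c ∣ (U - C c * T).rootMultiplicity a → d.e = 1 := by
  have : CharZero K := (algebraMap K ℂ).charZero
  -- `J` is transcendental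
  have hJtr : ∀ c : K, J ≠ algebraMap K 𝕂 c := by
    intro c hc
    have h1 : i (jK K Γ) = i (algebraMap K _ c) := by
      rw [← hJ, hc, ← IsScalarTower.algebraMap_apply, AlgHom.commutes]
    have h2 := i.injective h1
    exact transcendental_jK K Γ (h2 ▸ isAlgebraic_algebraMap c)
  have hUcT : ∀ c : K, U - C c * T ≠ 0 := by
    intro c hc
    have h1 : U = C c * T := sub_eq_zero.mp hc
    have hT0 : T ≠ 0 := by
      rintro rfl
      rw [h1, mul_zero] at hUT
      exact not_isCoprime_zero_zero hUT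
    rw [h1, map_mul, aeval_C] at hj
    have hTy : aeval y T ≠ 0 := fun h0 => hT0 ((transcendental_iff.mp h.trans) T h0)
    exact hJtr c (mul_right_cancel₀ hTy hj)
  have hJ0 : J ≠ 0 := by
    have := hJtr 0
    rwa [map_zero] at this
  by_cases hTa : T.eval a = 0
  · -- cusp
    have hUa : U.eval a ≠ 0 := by
      intro h0
      obtain ⟨s, t, hst⟩ := hUT
      have := congrArg (eval a) hst
      simp [h0, hTa] at this
    have hT0 : T ≠ 0 := by
      rintro rfl
      have h1 : aeval y U = 0 := by rw [← hj, map_zero, mul_zero]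
      have h2 := (transcendental_iff.mp h.trans) U h1
      rw [h2] at hUa
      simp at hUa
    obtain ⟨G, hG, hGa⟩ := exists_eq_pow_rootMultiplicity_mul_and_not_dvd T hT0 a
    have hr : 0 < T.rootMultiplicity a := (rootMultiplicity_pos hT0).mpr hTa
    obtain ⟨μ, hμ, g, hg, hμ0, hμo⟩ := exists_mu_inf K N
    obtain ⟨d, -⟩ := exists_locF_aux (ι := ι) N i hgen hι h (J' := J⁻¹) (jK K Γ)⁻¹ (jM K N)⁻¹
      (by rw [map_inv₀, map_inv₀, hJ]) (U := T) (T := U) (G := G) (a := a)
      (r := T.rootMultiplicity a) (k := g) hr hg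
      (by rw [← hj, inv_mul_cancel_left₀ hJ0]) hG
      (fun h0 => hGa (dvd_iff_isRoot.mpr h0)) hUa μ hμ hr rfl hμ0 hμo
      (fun σ μ' _ _ h1 => by
        rw [map_inv₀, map_inv₀, map_inv₀] at h1
        exact inv_injective h1)
    exact ⟨d, fun c hT' => absurd hTa hT'⟩
  · -- a finite point
    set c := U.eval a / T.eval a with hcdef
    have hUc : U.eval a = c * T.eval a := by rw [hcdef, div_mul_cancel₀ _ hTa]
    have hne := hUcT c
    have hroot : (U - C c * T).eval a = 0 := by simp [hUc]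
    obtain ⟨G, hG, hGa⟩ := exists_eq_pow_rootMultiplicity_mul_and_not_dvd _ hne a
    have hr : 0 < (U - C c * T).rootMultiplicity a := (rootMultiplicity_pos hne).mpr hroot
    obtain ⟨μ, hμ, g, hg, hgd, hμ0, hμo⟩ := exists_mu N c
    have hj' : (J - algebraMap K 𝕂 c) * aeval y T = aeval y (U - C c * T) := by
      rw [map_sub, map_mul, aeval_C, ← hj]; ring
    have hjj : ∀ (σ : FK K Γ →+* AlgebraicClosure (LaurentSeries K))
      (μ' : MF K N →+* LaurentSeries K),
      (∀ c : K, σ (algebraMap K _ c) = algebraMap (LaurentSeries K) _ (algebraMap K _ c)) →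
      (∀ c : K, μ' (algebraMap K _ c) = algebraMap K (LaurentSeries K) c) →
      σ (jK K Γ - algebraMap K _ c) =
        algebraMap (LaurentSeries K) _ (μ' (jM K N - algebraMap K _ c)) →
      σ (jK K Γ) = algebraMap (LaurentSeries K) _ (μ' (jM K N)) := by
      intro σ μ' h1 h2 h3
      rw [map_sub, map_sub, map_sub, h1, h2] at h3
      exact sub_left_injective h3
    have hJi : algebraMap 𝕂 E (J - algebraMap K 𝕂 c) = i (jK K Γ - algebraMap K _ c) := by
      rw [map_sub, map_sub, hJ, ← IsScalarTower.algebraMap_apply, AlgHom.commutes]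
    have huniq : ∀ c' : K, U.eval a = c' * T.eval a → c' = c := fun c' hc' =>
      mul_right_cancel₀ hTa (hc'.symm.trans hUc)
    by_cases hdvd : gInd c ∣ (U - C c * T).rootMultiplicity a
    · obtain ⟨m, hm⟩ := hgd.trans hdvd
      obtain ⟨d, hd⟩ := exists_locF_aux (ι := ι) N i hgen hι h (J' := J - algebraMap K 𝕂 c)
        (jK K Γ - algebraMap K _ c) (jM K N - algebraMap K _ c) hJi (k := 1) hr one_pos hj' hG
        (fun h0 => hGa (dvd_iff_isRoot.mpr h0)) hTa μ hμ (g := g) (m := m)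
        (Nat.pos_of_ne_zero (by rintro rfl; omega)) (by rw [one_mul]; exact hm) hμ0 hμo hjj
      exact ⟨d, fun _ _ _ _ => hd⟩
    · obtain ⟨d, -⟩ := exists_locF_aux (ι := ι) N i hgen hι h (J' := J - algebraMap K 𝕂 c)
        (jK K Γ - algebraMap K _ c) (jM K N - algebraMap K _ c) hJi (k := g) hr hg hj' hG
        (fun h0 => hGa (dvd_iff_isRoot.mpr h0)) hTa μ hμ hr rfl hμ0 hμo hjj
      refine ⟨d, fun c' _ hc' hd' => ?_⟩
      rw [huniq c' hc'] at hd'
      exact absurd hd' hdvd

/-- trivial generation -/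
theorem GenF.of_surjective {i : FK K Γ →ₐ[K] E} (hi : Function.Surjective i) : GenF i 𝕂 := by
  intro σ _ _ h z
  obtain ⟨w, rfl⟩ := hi z
  exact h w

theorem GenF.kummer (i : FK K Γ →ₐ[K] E) {p : ℕ} (hp : 0 < p) {f₁ : FK K Γ} (hf₁ : f₁ ≠ 0)
    (hdiv : ∀ P : Place K (FK K Γ), (p : ℤ) ∣ P.ord f₁) (v : E) (hv : v ^ p = i f₁)
    (hgen : ∀ S : Subring E, (∀ z, i z ∈ S) → v ∈ S → ∀ z, z ∈ S) : GenF i 𝕂 := by
  intro σ hσc _ hF z
  have : CharZero K := (algebraMap K ℂ).charZero
  let ι' : LaurentSeries K →ₐ[K] AlgebraicClosure (LaurentSeries K) :=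
    IsScalarTower.toAlgHom K (LaurentSeries K) (AlgebraicClosure (LaurentSeries K))
  have hinj : Function.Injective
      (algebraMap (LaurentSeries K) (AlgebraicClosure (LaurentSeries K))) :=
    (algebraMap (LaurentSeries K) (AlgebraicClosure (LaurentSeries K))).injective
  choose τf hτf using hF
  let τ : FK K Γ →+* LaurentSeries K :=
    { toFun := τf
      map_one' := by apply hinj; rw [← hτf, map_one, map_one, map_one]
      map_mul' := fun u v => by apply hinj; rw [← hτf, map_mul, map_mul, map_mul, hτf, hτf]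
      map_zero' := by apply hinj; rw [← hτf, map_zero, map_zero, map_zero]
      map_add' := fun u v => by apply hinj; rw [← hτf, map_add, map_add, map_add, hτf, hτf] }
  have hτ : ∀ z, σ (i z) = algebraMap (LaurentSeries K) _ (τ z) := hτf
  have hτc : ∀ c : K, τ (algebraMap K _ c) = algebraMap K (LaurentSeries K) c := by
    intro c
    apply hinj
    rw [← hτ, i.commutes, hσc]
  have hvw : σ v ^ p = ι' (τ f₁) := by
    rw [← map_pow, hv, hτ]
    rfl
  obtain ⟨u, hu⟩ := root_mem ι' τ hτc hp hf₁ hdiv hvw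
  have := hgen ((algebraMap (LaurentSeries K)
    (AlgebraicClosure (LaurentSeries K))).range.comap σ) (fun z => ⟨τ z, (hτ z).symm⟩)
    ⟨u, hu.symm⟩ z
  obtain ⟨w, hw⟩ := this
  exact ⟨w, hw.symm⟩

end main

end

end Fermat.Agent.H23.FKL
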