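import Fermat.Agent.H23.FKL.Deg

set_option autoImplicit false
set_option linter.unusedSectionVars false
set_option linter.style.haveILetI false

/-!
# The residue extension of the Gauss valuation on the function field of `Γ₁(N)`

-/

noncomputable section

open Polynomial IntermediateField CongruenceSubgroup
open IsLocalRing (residue ResidueField)

namespace Fermat.Agent.H23.FKL

open Fermat.Agent.H22 (dChar GamH exists_dChar_eq)
open Fermat.Agent.H18J
open Fermat.Agent.Q (Red intL redL)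
open ModularCurve (coeffMap qExpand jqModC modularFunctionFieldFullC)

local notation "Qb" => AlgebraicClosure ℚ

/-- **Invariance of the Gauss valuation** on the function field of `Γ₁(N)`. -/
def WRed [Algebra Qb ℂ] (A : ValuationSubring Qb) (N : ℕ) [NeZero N] : Prop :=
  ∀ (g : Gamma0 N) (x : F1 Qb N), Red A (x : LaurentSeries Qb) 0 →
    Red A (dia Qb (⊥ : Subgroup (ZMod N)ˣ) g x : LaurentSeries Qb) 0

theorem red_coeffMap {K : Type*} [Field K] {A : ValuationSubring K} (y : LaurentSeries A) :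
    Red A (coeffMap A.subtype y) (coeffMap (residue A) y) := by
  have h1 : coeffMap A.subtype y ∈ intL A := ⟨y, rfl⟩
  have h2 := Red.of_intL (⟨_, h1⟩ : intL A)
  rwa [Q.redL_coeffMap] at h2

theorem red_hb {K : Type*} [Field K] {A : ValuationSubring K} {N : ℕ} (q : Iu N) :
    Red A (hb K N q) (hb (ResidueField A) N q) := by
  have := red_coeffMap (A := A) (hb A N q)
  rwa [coeffMap_hb, coeffMap_hb] at this

theorem red_PL {K : Type*} [Field K] {A : ValuationSubring K} {N : ℕ} [NeZero N] (i : ℕ) :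
    Red A ((PL N K).coeff i) ((PL N (ResidueField A)).coeff i) := by
  have := red_coeffMap (A := A) ((PL N A).coeff i)
  rwa [← coeff_map, ← coeff_map, PL_map, PL_map] at this

theorem hb_one (R : Type*) [CommRing R] (N : ℕ) :
    hb R N (QuotientGroup.mk 1) = hS R N (1 : ZMod N) := by
  rw [hb_mk, Units.val_one]

theorem card_le_of_roots {F : Type*} [Field F] {ι : Type*} [Fintype ι] {h : ι → F}
    (hinj : Function.Injective h) {Q : F[X]} (hQ : Q ≠ 0) (hr : ∀ i, Q.eval (h i) = 0) :
    Fintype.card ι ≤ Q.natDegree := by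
  classical
  have h1 : Fintype.card ι = (Finset.univ.image h).card := by
    rw [Finset.card_image_of_injective _ hinj, Finset.card_univ]
  rw [h1]
  refine Polynomial.card_le_degree_of_subset_roots fun x hx => ?_
  obtain ⟨i, -, rfl⟩ := Finset.mem_image.mp (Finset.mem_val.mp hx)
  exact (mem_roots hQ).mpr (hr i)

theorem PL_separable (F : Type*) [Field F] {N : ℕ} [NeZero N] :
    (PL N F).Separable := by
  rw [PL]
  refine Polynomial.separable_prod_X_sub_C_iff.mpr (hb_injective F)

section Main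

variable [Algebra Qb ℂ] {N : ℕ} [NeZero N] {A : ValuationSubring Qb}

/-- sums `∑ z_i h_q^i` -/
theorem dia_sum (hN : N ≠ 1) (g : Gamma0 N) (n : ℕ) (z : ℕ → F1 Qb N)
    (hz : ∀ i, (z i : LaurentSeries Qb) ∈ FK Qb (Gamma0 N)) (q : Iu N) :
    dia Qb (⊥ : Subgroup (ZMod N)ˣ) g (∑ i ∈ Finset.range n, z i * YF Qb hN q ^ i) =
      ∑ i ∈ Finset.range n, z i * YF Qb hN (q * QuotientGroup.mk (dChar N g)⁻¹) ^ i := by
  rw [map_sum]
  refine Finset.sum_congr rfl fun i _ => ?_
  rw [map_mul, map_pow, dia_YF, dia_of_Gamma0 Qb g (z i) (hz i)]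

theorem exists_g (q : Iu N) : ∃ g : Gamma0 N,
    (QuotientGroup.mk 1 : Iu N) * QuotientGroup.mk (dChar N g)⁻¹ = q := by
  induction q using QuotientGroup.induction_on with
  | H u =>
    obtain ⟨g, h, -, hg⟩ := exists_dChar_eq N 1 u⁻¹
    refine ⟨⟨g, h⟩, ?_⟩
    rw [hg, inv_inv, ← QuotientGroup.mk_mul, one_mul]

/-- minimality in characteristic zero -/
theorem hmin_K (hN : N ≠ 1) (Q : (LaurentSeries Qb)[X])
    (hQ : ∀ i, Q.coeff i ∈ FK Qb (Gamma0 N)) (hy : Q.eval (hS Qb N (1 : ZMod N)) = 0)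
    (h0 : Q ≠ 0) : (PL N Qb).natDegree ≤ Q.natDegree := by
  rw [PL_natDegree]
  refine card_le_of_roots (hb_injective Qb) h0 fun q => ?_
  obtain ⟨g, rfl⟩ := exists_g q
  have hle : ∀ x ∈ FK Qb (Gamma0 N), x ∈ F1 Qb N := fun x hx =>
    FK_mono H22.GamH_le_Gamma0 hx
  let z : ℕ → F1 Qb N := fun i => ⟨Q.coeff i, hle _ (hQ i)⟩
  have h2 := dia_sum hN g (Q.natDegree + 1) z hQ (QuotientGroup.mk 1)
  have h3 : ∑ i ∈ Finset.range (Q.natDegree + 1), z i * YF Qb hN (QuotientGroup.mk 1) ^ i = 0 := by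
    apply Subtype.ext
    push_cast
    rw [← hb_one, eval_eq_sum_range] at hy
    exact hy
  rw [h3, map_zero] at h2
  have h4 := congrArg Subtype.val h2
  push_cast at h4
  rw [eval_eq_sum_range]
  exact h4.symm

/-- minimality in characteristic `p` -/
theorem hmin_k (W : WRed A N) (hN : N ≠ 1)
    (Q : (LaurentSeries (ResidueField A))[X])
    (hQ : ∀ i, Q.coeff i ∈ modularFunctionFieldFullC (ResidueField A) N)
    (hy : Q.eval (hS (ResidueField A) N (1 : ZMod N)) = 0)
    (h0 : Q ≠ 0) : (PL N (ResidueField A)).natDegree ≤ Q.natDegree := by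
  rw [PL_natDegree]
  refine card_le_of_roots (hb_injective (ResidueField A)) h0 fun q => ?_
  obtain ⟨g, rfl⟩ := exists_g q
  have hfull : modularFunctionFieldFullC Qb N = FK Qb (Gamma0 N) := by
    rw [FK_Gamma0_of_isAlgClosed, H05.laurentBaseChange_full]
  have hlift : ∀ i, ∃ z ∈ FK Qb (Gamma0 N), Red A z (Q.coeff i) := fun i => by
    rw [← hfull]
    exact Fermat.Agent.Q.exists_lift N (hQ i)
  choose z₀ hz₀ hzr using hlift
  have hle : ∀ x ∈ FK Qb (Gamma0 N), x ∈ F1 Qb N := fun x hx =>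
    FK_mono H22.GamH_le_Gamma0 hx
  let z : ℕ → F1 Qb N := fun i => ⟨z₀ i, hle _ (hz₀ i)⟩
  have hred : ∀ q : Iu N, Red A ((∑ i ∈ Finset.range (Q.natDegree + 1),
      z i * YF Qb hN q ^ i : F1 Qb N) : LaurentSeries Qb) (Q.eval (hb (ResidueField A) N q)) := by
    intro q
    rw [eval_eq_sum_range]
    push_cast
    exact Red.sum _ fun i _ => (hzr i).mul ((red_hb q).pow i)
  have h2 := dia_sum hN g (Q.natDegree + 1) z hz₀ (QuotientGroup.mk 1)
  have h3 := hred (QuotientGroup.mk 1)
  rw [hb_one, hy] at h3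
  have h4 := W g _ h3
  rw [h2] at h4
  exact (hred _).unique h4

theorem full_eq_FK : modularFunctionFieldFullC Qb N = FK Qb (Gamma0 N) := by
  rw [FK_Gamma0_of_isAlgClosed, H05.laurentBaseChange_full]

theorem full_le_F1 : modularFunctionFieldFullC Qb N ≤ F1 Qb N := by
  rw [full_eq_FK]
  exact FK_mono H22.GamH_le_Gamma0

/-- **Degree in characteristic zero** -/
theorem relfinrank_F1 (hN : N ≠ 1) :
    (modularFunctionFieldFullC Qb N).relfinrank (F1 Qb N) = Fintype.card (Iu N) := by
  rw [F1_eq Qb hN, full_eq_FK, ← PL_natDegree (N := N) Qb]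
  exact relfinrank_sup_adjoin _ _ (PL_monic Qb) (PL_coeff_mem Qb hN)
    (by rw [← hb_one]; exact PL_eval Qb _) (hmin_K hN)

variable (N A) in
/-- the residue field of the function field of `Γ₁(N)` -/
def K1 : IntermediateField (ResidueField A) (LaurentSeries (ResidueField A)) :=
  modularFunctionFieldFullC (ResidueField A) N ⊔
    IntermediateField.adjoin (ResidueField A) {hS (ResidueField A) N (1 : ZMod N)}

theorem full_le_K1 : modularFunctionFieldFullC (ResidueField A) N ≤ K1 N A := le_sup_left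

theorem hS_mem_K1 : hS (ResidueField A) N (1 : ZMod N) ∈ K1 N A :=
  (le_sup_right : IntermediateField.adjoin (ResidueField A)
    {hS (ResidueField A) N (1 : ZMod N)} ≤ K1 N A) (IntermediateField.subset_adjoin _ _ rfl)

theorem PL_coeff_mem_k {ℓ : ℕ} (hℓ : ℓ.Prime) (hA : A.LiesOverPrime ℓ)
    (hM : (N : ResidueField A) ≠ 0) (hN : N ≠ 1) (i : ℕ) :
    (PL N (ResidueField A)).coeff i ∈ modularFunctionFieldFullC (ResidueField A) N := by
  have h2 := PL_coeff_mem Qb hN i
  rw [← full_eq_FK] at h2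
  exact Fermat.Agent.Q.red_mem_full hℓ hA hM h2 (red_PL i)

/-- **Degree in characteristic `p`** -/
theorem relfinrank_K1 {ℓ : ℕ} (hℓ : ℓ.Prime) (hA : A.LiesOverPrime ℓ)
    (hM : (N : ResidueField A) ≠ 0) (hN : N ≠ 1) (W : WRed A N) :
    (modularFunctionFieldFullC (ResidueField A) N).relfinrank (K1 N A) =
      Fintype.card (Iu N) := by
  rw [K1, ← PL_natDegree (N := N) (ResidueField A)]
  exact relfinrank_sup_adjoin _ _ (PL_monic _) (PL_coeff_mem_k hℓ hA hM hN)
    (by rw [← hb_one]; exact PL_eval _ _) (hmin_k W hN)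

/-- **Separability** -/
theorem isSeparable_K1 {ℓ : ℕ} (hℓ : ℓ.Prime) (hA : A.LiesOverPrime ℓ)
    (hM : (N : ResidueField A) ≠ 0) (hN : N ≠ 1)
    {T : IntermediateField (ResidueField A) (LaurentSeries (ResidueField A))}
    (hT : T ≤ modularFunctionFieldFullC (ResidueField A) N)
    (hs : ∀ z ∈ modularFunctionFieldFullC (ResidueField A) N, IsSeparable T z) :
    ∀ z ∈ K1 N A, IsSeparable T z :=
  isSeparable_sup_adjoin hT hs _ (PL_monic _) (PL_separable _)
    (PL_coeff_mem_k hℓ hA hM hN) (by rw [← hb_one]; exact PL_eval _ _)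

end Main

end Fermat.Agent.H23.FKL
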